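import Fermat.Agent.Jac.BigCell.Semicontinuity
import Fermat.Agent.Jac.BigCell.Normalise
import Fermat.Agent.Jac.Curve.Algebra

/-!
Lattices over a field: the tail, vanishing at a rational point, and finiteness.
-/

set_option autoImplicit false
set_option linter.unusedVariables false
set_option linter.unusedSectionVars false

noncomputable section

open HahnSeries
open scoped TensorProduct

attribute [local instance 2000] HahnSeries.instAlgebra

namespace Fermat.Agent.Jac

universe u

/-- Series without polar part. -/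
def tail (A : Type u) [CommRing A] : Submodule A (LaurentSeries A) where
  carrier := {x | ∀ i : ℤ, i ≤ 0 → x.coeff i = 0}
  add_mem' := fun hx hy i hi => by rw [HahnSeries.coeff_add, hx i hi, hy i hi, add_zero]
  zero_mem' := fun i _ => rfl
  smul_mem' := fun a x hx i hi => by rw [HahnSeries.coeff_smul, hx i hi, smul_zero]

theorem mem_tail {A : Type u} [CommRing A] {x : LaurentSeries A} :
    x ∈ tail A ↔ ∀ i : ℤ, i ≤ 0 → x.coeff i = 0 := Iff.rfl

theorem poleLE_of_mem_tail {A : Type u} [CommRing A] {x : LaurentSeries A} (h : x ∈ tail A) :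
    PoleLE x (-1) := fun i hi => h i (by omega)

theorem ofPowerSeries_mul_mem_tail {A : Type u} [CommRing A] (p : PowerSeries A)
    {x : LaurentSeries A} (hx : x ∈ tail A) : HahnSeries.ofPowerSeries ℤ A p * x ∈ tail A :=
  fun i hi => ((poleLE_ofPowerSeries p).mul (poleLE_of_mem_tail hx)) i (by omega)

section Field

variable {K : Type u} [Field K]

/-- All leading orders occur iff the polar parts are everything. -/
theorem sup_tail_eq_top (W : Submodule K (LaurentSeries K))
    (h : ∀ j : ℕ, ∃ w ∈ W, PoleLE w j ∧ w.coeff (-(j : ℤ)) ≠ 0) : W ⊔ tail K = ⊤ := by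
  refine eq_top_iff.2 fun x _ => ?_
  obtain ⟨D, hD⟩ := exists_poleLE x
  induction D using Nat.strong_induction_on generalizing x with
  | _ D IH =>
    obtain ⟨w, hw, hwp, hw0⟩ := h D
    set a := x.coeff (-(D : ℤ)) / w.coeff (-(D : ℤ))
    have hp : PoleLE (x - a • w) ((D : ℤ) - 1) := by
      intro i hi
      rcases (show i ≤ -(D : ℤ) by omega).lt_or_eq with h1 | rfl
      · exact (hD.sub (hwp.smul a)) i h1
      · rw [HahnSeries.coeff_sub, HahnSeries.coeff_smul, smul_eq_mul, div_mul_cancel₀ _ hw0, sub_self]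
    have hmem : x - a • w ∈ W ⊔ tail K := by
      rcases Nat.eq_zero_or_pos D with rfl | hpos
      · exact Submodule.mem_sup_right fun i hi => hp i (by omega)
      · exact IH (D - 1) (by omega) _ Submodule.mem_top (hp.mono (by omega))
    simpa using add_mem hmem (Submodule.mem_sup_left (W.smul_mem a hw))

theorem polar_of_sup_inf {W : Submodule K (LaurentSeries K)} (h1 : W ⊔ tail K = ⊤)
    (h2 : W ⊓ tail K = ⊥) : Expansion.Polar W := by
  refine ⟨fun n => ?_, fun w hw h0 => ?_⟩
  · obtain ⟨w, hw, t, ht, hwt⟩ :=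
      Submodule.mem_sup.1 (h1.symm ▸ Submodule.mem_top (x := (single (-(n : ℤ)) (1 : K))))
    refine ⟨w, hw, fun i hi => ?_⟩
    have := congrArg (fun y => HahnSeries.coeff y i) hwt
    simp only [HahnSeries.coeff_add, ht i hi, add_zero] at this
    rw [this]
    split_ifs with h <;> simp [h]
  · have : w ∈ W ⊓ tail K := ⟨hw, h0⟩
    rwa [h2, Submodule.mem_bot] at this

theorem sup_tail_of_polar {W : Submodule K (LaurentSeries K)} (h : Expansion.Polar W) :
    W ⊔ tail K = ⊤ :=
  sup_tail_eq_top W fun j => by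
    obtain ⟨w, hw, hw0⟩ := h.1 j
    exact ⟨w, hw, fun i hi => by rw [hw0 i (by omega), if_neg (by omega)],
      by rw [hw0 _ (by omega), if_pos rfl]; exact one_ne_zero⟩

theorem inf_tail_of_polar {W : Submodule K (LaurentSeries K)} (h : Expansion.Polar W) :
    W ⊓ tail K = ⊥ :=
  (Submodule.eq_bot_iff _).2 fun w hw => h.2 w hw.1 hw.2

/-- Multiplication by a series, on submodules. -/
def scaleBy (u : LaurentSeries K) (W : Submodule K (LaurentSeries K)) :
    Submodule K (LaurentSeries K) :=
  W.map (LinearMap.mulLeft K u)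

theorem mem_scaleBy {u : LaurentSeries K} {W : Submodule K (LaurentSeries K)} {x : LaurentSeries K} :
    x ∈ scaleBy u W ↔ ∃ w ∈ W, u * w = x :=
  Submodule.mem_map.trans (exists_congr fun w => Iff.rfl)

theorem scaleBy_sup_tail (p q : PowerSeries K) (hpq : p * q = 1)
    {W : Submodule K (LaurentSeries K)} (h : W ⊔ tail K = ⊤) :
    scaleBy (HahnSeries.ofPowerSeries ℤ K p) W ⊔ tail K = ⊤ := by
  refine eq_top_iff.2 fun x _ => ?_
  obtain ⟨w, hw, t, ht, hwt⟩ :=
    Submodule.mem_sup.1 (h.symm ▸ Submodule.mem_top (x := HahnSeries.ofPowerSeries ℤ K q * x))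
  have hx : x = HahnSeries.ofPowerSeries ℤ K p * w + HahnSeries.ofPowerSeries ℤ K p * t := by
    rw [← mul_add, hwt, ← mul_assoc, ← map_mul, hpq, map_one, one_mul]
  rw [hx]
  exact Submodule.add_mem_sup (mem_scaleBy.2 ⟨w, hw, rfl⟩) (ofPowerSeries_mul_mem_tail p ht)

theorem scaleBy_inf_tail (p q : PowerSeries K) (hpq : p * q = 1)
    (W : Submodule K (LaurentSeries K)) :
    scaleBy (HahnSeries.ofPowerSeries ℤ K p) W ⊓ tail K =
      scaleBy (HahnSeries.ofPowerSeries ℤ K p) (W ⊓ tail K) := by
  ext x
  simp only [Submodule.mem_inf, mem_scaleBy]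
  constructor
  · rintro ⟨⟨w, hw, rfl⟩, hx⟩
    refine ⟨w, ⟨hw, ?_⟩, rfl⟩
    have := ofPowerSeries_mul_mem_tail q hx
    rwa [← mul_assoc, ← map_mul, mul_comm q, hpq, map_one, one_mul] at this
  · rintro ⟨w, ⟨hw, ht⟩, rfl⟩
    exact ⟨⟨w, hw, rfl⟩, ofPowerSeries_mul_mem_tail p ht⟩

theorem finrank_scaleBy {u : LaurentSeries K} (hu : u ≠ 0) (W : Submodule K (LaurentSeries K)) :
    Module.finrank K (scaleBy u W) = Module.finrank K W :=
  (Submodule.equivMapOfInjective _ (mul_right_injective₀ hu) W).finrank_eq.symm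

end Field

namespace Expansion

variable {k : Type u} [Field k] {R : Type u} [CommRing R] [Algebra k R] (E : Expansion k R)
  (A : Type u) [CommRing A] [Algebra k A]

/-- The functions, as a submodule of series. -/
def funs : Submodule A (LaurentSeries A) := LinearMap.range (E.expA A).toLinearMap

theorem mem_funs {x : LaurentSeries A} : x ∈ E.funs A ↔ ∃ r, E.expA A r = x := Iff.rfl

/-- Evaluation at a rational point, with coefficients. -/
def evalPt (ψ : R →ₐ[k] k) : E.CoordRing A →ₐ[A] A :=
  (Algebra.TensorProduct.lift (Algebra.ofId A A) ((Algebra.ofId k A).comp ψ)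
    fun _ _ => Commute.all _ _).comp (E.toCoord A).symm.toAlgHom

variable {E A}

theorem evalPt_coordInc (ψ : R →ₐ[k] k) (r : R) :
    E.evalPt A ψ (E.coordInc A r) = algebraMap k A (ψ r) := by
  change Algebra.TensorProduct.lift (Algebra.ofId A A) ((Algebra.ofId k A).comp ψ)
    (fun _ _ => Commute.all _ _) ((1 : A) ⊗ₜ[k] r) = _
  simp [Algebra.ofId_apply]

theorem coordInc_algebraMap (a : k) :
    E.coordInc A (algebraMap k R a) = algebraMap A (E.CoordRing A) (algebraMap k A a) := by
  apply E.expA_injective A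
  rw [E.expA_coordInc, E.emb_const, AlgHom.commutes, HahnSeries.algebraMap_apply]
  simp

/-- The functions vanishing at a rational point are generated by those with constant coefficients. -/
theorem mem_span_of_evalPt {ψ : R →ₐ[k] k} {r : E.CoordRing A} (h : E.evalPt A ψ r = 0) :
    r ∈ Ideal.span (E.coordInc A '' {s | ψ s = 0}) := by
  suffices H : ∀ x : E.CoordRing A,
      x - algebraMap A _ (E.evalPt A ψ x) ∈ Ideal.span (E.coordInc A '' {s | ψ s = 0}) by
    simpa [h] using H r
  intro x
  induction x using coordRing_induction E A with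
  | h a s =>
    have h1 : E.coordInc A (s - algebraMap k R (ψ s)) ∈
        Ideal.span (E.coordInc A '' {s | ψ s = 0}) :=
      Ideal.subset_span ⟨_, by simp, rfl⟩
    rw [map_smul, evalPt_coordInc, smul_eq_mul, map_mul, ← Algebra.smul_def, ← smul_sub,
      ← coordInc_algebraMap, ← map_sub, Algebra.smul_def]
    exact Ideal.mul_mem_left _ _ h1
  | hadd x y hx hy =>
    rw [map_add, map_add, add_sub_add_comm]
    exact Ideal.add_mem _ hx hy

namespace Lattice

variable (L : Lattice E A)

/-- Coordinates with respect to the dual basis. -/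
def coordFn (i : Fin L.n) : L.W →ₗ[A] E.CoordRing A where
  toFun x := (x.2 i).choose
  map_add' x y := E.expA_injective A (by
    rw [map_add (E.expA A)]
    refine ((x + y).2 i).choose_spec.trans ?_
    rw [show (E.expA A) (x.2 i).choose = L.w' i * x from (x.2 i).choose_spec,
      show (E.expA A) (y.2 i).choose = L.w' i * y from (y.2 i).choose_spec, ← mul_add]
    rfl)
  map_smul' a x := E.expA_injective A (by
    rw [RingHom.id_apply, map_smul (E.expA A)]
    refine ((a • x).2 i).choose_spec.trans ?_
    rw [show (E.expA A) (x.2 i).choose = L.w' i * x from (x.2 i).choose_spec, ← mul_smul_comm]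
    rfl)

theorem expA_coordFn (i : Fin L.n) (x : L.W) : E.expA A (L.coordFn i x) = L.w' i * x :=
  (x.2 i).choose_spec

theorem coordFn_eq_sum (x : L.W) :
    (x : LaurentSeries A) = ∑ i, E.expA A (L.coordFn i x) * L.w i := by
  simp only [expA_coordFn, mul_right_comm _ (x : LaurentSeries A), ← Finset.sum_mul, L.sum_eq,
    one_mul]

theorem coordFn_comm (i j : Fin L.n) (x y : L.W) :
    L.coordFn i x * L.coordFn j y = L.coordFn i y * L.coordFn j x := E.expA_injective A <| by
  rw [map_mul, map_mul, expA_coordFn, expA_coordFn, expA_coordFn, expA_coordFn]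
  ring

theorem sum_coordFn_w : ∑ i, L.coordFn i ⟨L.w i, L.w_mem i⟩ = 1 := E.expA_injective A <| by
  simp only [map_sum, expA_coordFn, map_one, L.sum_eq]

/-- The sublattice of elements vanishing at a rational point. -/
def vanish (ψ : R →ₐ[k] k) : Submodule A (LaurentSeries A) :=
  (⨅ i, LinearMap.ker ((E.evalPt A ψ).toLinearMap ∘ₗ L.coordFn i)).map L.W.subtype

theorem vanish_le (ψ : R →ₐ[k] k) : L.vanish ψ ≤ L.W := Submodule.map_subtype_le _ _

theorem mem_vanish {ψ : R →ₐ[k] k} (x : L.W) :
    (x : LaurentSeries A) ∈ L.vanish ψ ↔ ∀ i, E.evalPt A ψ (L.coordFn i x) = 0 := by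
  rw [vanish, ← L.W.coe_subtype, Submodule.mem_map]
  simp only [Submodule.mem_iInf, LinearMap.mem_ker, LinearMap.comp_apply]
  refine ⟨fun ⟨y, hy, he⟩ => ?_, fun h => ⟨x, h, rfl⟩⟩
  obtain rfl : y = x := Subtype.ext he
  exact hy

/-- Vanishing at a point is multiplication by its ideal. -/
theorem vanish_eq_span (ψ : R →ₐ[k] k) : L.vanish ψ =
    Submodule.span A {v | ∃ (r : E.CoordRing A) (w : LaurentSeries A),
      E.evalPt A ψ r = 0 ∧ w ∈ L.W ∧ v = E.expA A r * w} := by
  refine le_antisymm (fun v hv => ?_) (Submodule.span_le.2 ?_)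
  · lift v to L.W using L.vanish_le ψ hv
    rw [L.coordFn_eq_sum v]
    exact sum_mem fun i _ => Submodule.subset_span ⟨_, _, (L.mem_vanish v).1 hv i, L.w_mem i, rfl⟩
  · rintro _ ⟨r, w, hr, hw, rfl⟩
    refine (L.mem_vanish ⟨_, L.expA_mul_mem r hw⟩).2 fun i => ?_
    have : L.coordFn i ⟨_, L.expA_mul_mem r hw⟩ = r * L.coordFn i ⟨w, hw⟩ :=
      E.expA_injective A (by rw [expA_coordFn, map_mul, expA_coordFn]; exact mul_left_comm _ _ _)
    rw [this, map_mul, hr, zero_mul]

end Lattice

variable {K : Type u} [Field K] [Algebra k K]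

namespace Lattice

variable (L : Lattice E K)

/-- A point cuts down by one. -/
theorem le_vanish_sup_span (ψ : R →ₐ[k] k) (v : L.W) {j : Fin L.n}
    (hv : E.evalPt K ψ (L.coordFn j v) ≠ 0) :
    L.W ≤ L.vanish ψ ⊔ Submodule.span K {(v : LaurentSeries K)} := by
  intro x hx
  let a := E.evalPt K ψ (L.coordFn j ⟨x, hx⟩) / E.evalPt K ψ (L.coordFn j v)
  have h1 : x = (x - a • (v : LaurentSeries K)) + a • (v : LaurentSeries K) := by abel
  rw [h1]
  refine Submodule.add_mem_sup ?_ (Submodule.smul_mem _ _ (Submodule.mem_span_singleton_self _))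
  refine (L.mem_vanish ((⟨x, hx⟩ : L.W) - a • v)).2 fun i => ?_
  have hc := congrArg (E.evalPt K ψ) (L.coordFn_comm i j v ⟨x, hx⟩)
  simp only [map_mul] at hc
  rw [map_sub, map_sub, map_smul, map_smul, smul_eq_mul, sub_eq_zero]
  simp only [a]
  field_simp
  linear_combination -hc

theorem exists_notMem_vanish (ψ : R →ₐ[k] k) :
    ∃ j, E.evalPt K ψ (L.coordFn j ⟨L.w j, L.w_mem j⟩) ≠ 0 := by
  by_contra h
  simp only [not_exists, not_not] at h
  have := congrArg (E.evalPt K ψ) L.sum_coordFn_w
  simp [map_sum, h] at this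

theorem finite_inf_tail : Module.Finite K (L.W ⊓ tail K : Submodule K (LaurentSeries K)) := by
  choose D hD using fun i => exists_poleLE (L.w' i)
  obtain ⟨d, b, hb⟩ := E.exists_bounded_gen K (Finset.univ.sup D)
  let T := Submodule.span K (Set.range fun p : Fin d × Fin L.n => E.emb K (b p.1) * L.w p.2)
  have : FiniteDimensional K T := FiniteDimensional.span_of_finite K (Set.finite_range _)
  refine Submodule.finiteDimensional_of_le (S₂ := T) fun x hx => ?_
  lift x to L.W using hx.1
  rw [L.coordFn_eq_sum x]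
  refine sum_mem fun i _ => ?_
  have hp : PoleLE (E.expA K (L.coordFn i x)) (Finset.univ.sup D : ℕ) := by
    rw [expA_coordFn]
    exact ((hD i).mul (poleLE_of_mem_tail hx.2)).mono
      (by have := Finset.le_sup (f := D) (Finset.mem_univ i); omega)
  obtain ⟨a, ha⟩ := (Submodule.mem_span_range_iff_exists_fun K).1 (hb _ hp)
  rw [← ha, Finset.sum_mul]
  exact sum_mem fun j _ => by
    rw [smul_mul_assoc]
    exact Submodule.smul_mem _ _ (Submodule.subset_span ⟨(j, i), rfl⟩)

end Lattice

/-- A nonzero function is nonzero at some rational point. -/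
theorem exists_evalPt_ne_zero [IsAlgClosed k] [Algebra.FiniteType k R] {r : E.CoordRing K}
    (hr : r ≠ 0) : ∃ ψ : R →ₐ[k] k, E.evalPt K ψ r ≠ 0 := by
  classical
  have : IsReduced R := isReduced_of_injective E.e E.injective
  obtain ⟨y, rfl⟩ := (E.toCoord K).surjective r
  let B := Module.Free.chooseBasis k K
  let e := TensorProduct.equivFinsuppOfBasisLeft (N := R) B
  obtain ⟨f, rfl⟩ := e.symm.surjective y
  by_contra hall
  simp only [not_exists, not_not] at hall
  refine hr ?_
  suffices f = 0 by simp [this]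
  have hspec : ∀ (ψ : R →ₐ[k] k) (g : _ →₀ R), E.evalPt K ψ (E.toCoord K (e.symm g)) =
      g.sum fun i s => ψ s • B i := by
    intro ψ g
    induction g using Finsupp.induction_linear with
    | zero => simp
    | add g g' hg hg' =>
      rw [map_add, map_add, map_add, hg, hg',
        Finsupp.sum_add_index' (fun i => by simp) (fun i a b => by rw [map_add, add_smul])]
    | single i s =>
      rw [Finsupp.sum_single_index (by simp)]
      change Algebra.TensorProduct.lift (Algebra.ofId K K) ((Algebra.ofId k K).comp ψ)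
        (fun _ _ => Commute.all _ _) (e.symm (Finsupp.single i s)) = _
      simp [e, Algebra.ofId_apply, Algebra.smul_def, mul_comm]
  ext i
  refine Curve.eq_zero_of_forall_algHom (k := k) fun ψ => ?_
  have h := hall ψ
  rw [hspec] at h
  have : Finsupp.linearCombination k B (f.mapRange ψ (map_zero ψ)) = 0 := by
    rw [← h, Finsupp.linearCombination_apply, Finsupp.sum_mapRange_index (by simp)]
  simpa using DFunLike.congr_fun (linearIndependent_iff.1 B.linearIndependent _ this) i

/-- Series modulo functions and tails are finite dimensional. -/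
theorem finite_quotient_funs_sup_tail :
    Module.Finite K (LaurentSeries K ⧸ (E.funs K ⊔ tail K)) := by
  classical
  obtain ⟨n₀, hn₀⟩ := E.exists_pole
  let T := Submodule.span K
    (Set.range fun n : Fin n₀ => (single (-((n : ℕ) : ℤ)) (1 : K) : LaurentSeries K))
  have htop : (E.funs K ⊔ T) ⊔ tail K = ⊤ := by
    refine sup_tail_eq_top _ fun j => ?_
    by_cases hj : j < n₀
    · exact ⟨_, Submodule.mem_sup_right (Submodule.subset_span ⟨⟨j, hj⟩, rfl⟩),
        fun i hi => HahnSeries.coeff_single_of_ne (by simp; omega), by simp⟩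
    · obtain ⟨f, hf1, hf2⟩ := hn₀ j (by omega)
      refine ⟨_, Submodule.mem_sup_left ⟨E.coordInc K f, E.expA_coordInc K f⟩, ?_, ?_⟩
      · exact hf2.lmap _
      · simp [emb, hf1]
  have : Module.Finite K T :=
    Module.Finite.iff_fg.2 (Submodule.fg_span (Set.finite_range _))
  refine Module.Finite.of_surjective (((E.funs K ⊔ tail K).mkQ).comp T.subtype) fun z => ?_
  obtain ⟨x, rfl⟩ := Submodule.mkQ_surjective _ z
  have hx : x ∈ T ⊔ (E.funs K ⊔ tail K) := by
    rw [sup_left_comm, ← sup_assoc, htop]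
    trivial
  obtain ⟨t, ht, s, hs, rfl⟩ := Submodule.mem_sup.1 hx
  refine ⟨⟨t, ht⟩, ?_⟩
  simp only [LinearMap.comp_apply, Submodule.subtype_apply, map_add, Submodule.mkQ_apply]
  rw [(Submodule.Quotient.mk_eq_zero _).2 hs, add_zero]

theorem funs_le_of_one_mem (L : Lattice E K) (h : (1 : LaurentSeries K) ∈ L.W) :
    E.funs K ≤ L.W := by
  rintro _ ⟨r, rfl⟩
  simpa using L.expA_mul_mem r h

/-- Over functions, a polar lattice is everything modulo tails. -/
def quotientEquiv {W : Submodule K (LaurentSeries K)} (hS : E.funs K ≤ W) (hW : Polar W) :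
    W.map (E.funs K).mkQ ≃ₗ[K] LaurentSeries K ⧸ (E.funs K ⊔ tail K) :=
  LinearEquiv.ofBijective ((Submodule.factor le_sup_left).comp (W.map (E.funs K).mkQ).subtype)
    ⟨by
      rw [injective_iff_map_eq_zero]
      rintro ⟨_, w, hw, rfl⟩ h
      apply Subtype.ext
      change (E.funs K).mkQ w = 0
      rw [Submodule.mkQ_apply, Submodule.Quotient.mk_eq_zero]
      change Submodule.factor (le_sup_left : E.funs K ≤ E.funs K ⊔ tail K) ((E.funs K).mkQ w) = 0 at h
      erw [Submodule.factor_mk, Submodule.Quotient.mk_eq_zero] at h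
      obtain ⟨s, hs, t, ht, hst⟩ := Submodule.mem_sup.1 h
      have : t = 0 := by
        have h1 : t ∈ W ⊓ tail K := ⟨by
          rw [show t = w - s from eq_sub_of_add_eq' hst]; exact sub_mem hw (hS hs), ht⟩
        rwa [inf_tail_of_polar hW, Submodule.mem_bot] at h1
      rw [← hst, this, add_zero]
      exact hs,
    fun z => by
      obtain ⟨x, rfl⟩ := Submodule.mkQ_surjective _ z
      obtain ⟨w, hw, t, ht, rfl⟩ :=
        Submodule.mem_sup.1 ((sup_tail_of_polar hW).symm ▸ Submodule.mem_top (x := x))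
      refine ⟨⟨_, Submodule.mem_map_of_mem hw⟩, ?_⟩
      change Submodule.factor (le_sup_left : E.funs K ≤ E.funs K ⊔ tail K) ((E.funs K).mkQ w) = _
      erw [Submodule.factor_mk]
      refine (Submodule.Quotient.eq _).2 ?_
      rw [sub_add_cancel_left]
      exact neg_mem (Submodule.mem_sup_right ht)⟩

/-- Enlarging by one vector adds exactly one dimension. -/
theorem finrank_map_mkQ_step {S W W' : Submodule K (LaurentSeries K)} {w : LaurentSeries K}
    (hS : S ≤ W') (hle : W' ≤ W) (hw : w ∈ W) (hnot : w ∉ W')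
    (hgen : W ≤ W' ⊔ Submodule.span K {w}) [Module.Finite K (W.map S.mkQ)] :
    Module.finrank K (W'.map S.mkQ) + 1 = Module.finrank K (W.map S.mkQ) := by
  have hfin : Module.Finite K (W'.map S.mkQ) :=
    Submodule.finiteDimensional_of_le (Submodule.map_mono hle)
  have hlt : W'.map S.mkQ < W.map S.mkQ := by
    refine lt_of_le_of_ne (Submodule.map_mono hle) fun h => hnot ?_
    obtain ⟨y, hy, hye⟩ := h.symm ▸ Submodule.mem_map_of_mem (f := S.mkQ) hw
    rw [Submodule.mkQ_apply, Submodule.mkQ_apply, Submodule.Quotient.eq] at hye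
    have := sub_mem hy (hS hye)
    rwa [sub_sub_cancel] at this
  have h1 := Submodule.finrank_lt_finrank_of_lt hlt
  have : Module.Finite K (Submodule.span K {S.mkQ w}) := inferInstance
  have h2 : W.map S.mkQ ≤ W'.map S.mkQ ⊔ Submodule.span K {S.mkQ w} := by
    refine (Submodule.map_mono hgen).trans_eq ?_
    rw [Submodule.map_sup, Submodule.map_span, Set.image_singleton]
  have h3 := Submodule.finrank_mono h2
  have h4 := Submodule.finrank_add_le_finrank_add_finrank (W'.map S.mkQ)
    (Submodule.span K {S.mkQ w})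
  have h5 : Module.finrank K (Submodule.span K {S.mkQ w}) ≤ 1 := by
    simpa using finrank_span_le_card ({S.mkQ w} : Set (LaurentSeries K ⧸ S))
  omega

end Expansion

end Fermat.Agent.Jac
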