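import Fermat.Agent.Jac.AJ.CellsTwist

/-!
Classes with a cell are sums of a fixed number of points.
-/

set_option autoImplicit false
set_option linter.unusedVariables false
set_option linter.unusedSectionVars false

noncomputable section

open CategoryTheory CategoryTheory.Limits AlgebraicGeometry TopologicalSpace Opposite NeronModelInfra
open AlgebraicGeometry.RelPicard
open scoped TensorProduct

attribute [local instance 2000] HahnSeries.instAlgebra

namespace Fermat.Agent.Jac

universe u

section Trivial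

variable {k : Type u} [Field k] {C : Scheme.{u}} {c : C ⟶ Spec (CommRingCat.of k)}
  {ε : SchemeHomOver (𝟙 (Spec (CommRingCat.of k))) c} (M : CurveModel c ε)
  (A : Type u) [CommRing A] [Algebra k A]

theorem exists_frame_one : ∃ F : Frame M (Cocycle.one (curveOver c A)),
    F.image = M.expansion.funs A := by
  let η := Sec.gen (Cocycle.one (curveOver c A)).inv ⟨⟩ (M.D1 A) le_top
  let s := Sec.gen (Cocycle.one (curveOver c A)) ⟨⟩ (M.D1 A) le_top
  have h1 : Sec.pair η s = 1 := Sec.pair_gen _ _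
  let F : Frame M (Cocycle.one (curveOver c A)) :=
    ⟨η, s, 1, by rw [h1, map_one]; exact isUnit_one, by rw [map_one]; exact isUnit_one⟩
  let e := Sec.gen (Cocycle.one (curveOver c A)) ⟨⟩ (M.D0 A) le_top
  have hd : (↑F.den⁻¹ : LaurentSeries A) = 1 := by
    refine Units.inv_eq_of_mul_eq_one_right ?_
    rw [mul_one, Frame.den_eq, map_one, map_one]
  have he : F.toLaurent e = 1 := by
    rw [Frame.toLaurent, hd, mul_one]
    have h2 : Sec.pair (F.η.restrict (M.D01_le1 A)) (e.restrict (M.D01_le0 A)) = 1 :=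
      Sec.pair_gen (c := Cocycle.one (curveOver c A)) ⟨⟩ (W := M.D01 A) le_top
    rw [h2, map_one]
  refine ⟨F, le_antisymm ?_ ?_⟩
  · rintro _ ⟨x, rfl⟩
    obtain ⟨r, hr⟩ := (M.coordFun A).surjective (x.val ⟨⟩ (M.D0 A) le_rfl le_top)
    exact ⟨r, by
      rw [Sec.eq_smul_gen ⟨⟩ le_top x, ← hr, Frame.toLaurent_smul_coordFun, he, mul_one]
      rfl⟩
  · rintro _ ⟨r, rfl⟩
    exact ⟨M.coordFun A r • e, by rw [Frame.toLaurent_smul_coordFun, he, mul_one]; rfl⟩

end Trivial

variable {k : Type u} [Field k] [IsAlgClosed k] {C : Scheme.{u}}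
  {c : C ⟶ Spec (CommRingCat.of k)} [IsIntegral C] [IsProper c] [SmoothOfRelativeDimension 1 c]
  {ε : SchemeHomOver (𝟙 (Spec (CommRingCat.of k))) c} {M : CurveModel c ε}

theorem exists_point_cut {ι : Type u} {z : Cocycle (curveOver c k) ι} (F : Frame M z)
    (h1 : (1 : LaurentSeries k) ∈ F.image) (hne : ¬ F.image ≤ M.expansion.funs k) :
    ∃ ψ : FunRing c M.C0 →ₐ[k] k, M.expansion.funs k ≤ F.lattice.vanish ψ := by
  set L := F.lattice
  have h1' : (1 : LaurentSeries k) ∈ L.W := F.lattice_W.symm ▸ h1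
  let J : Ideal (M.expansion.CoordRing k) :=
    Ideal.span (Set.range fun i => L.coordFn i ⟨1, h1'⟩)
  have hJ : J ≠ ⊤ := by
    intro htop
    obtain ⟨a, ha⟩ := (Submodule.mem_span_range_iff_exists_fun _).1
      ((Ideal.eq_top_iff_one _).1 htop)
    refine hne fun w hw => ?_
    have hw' : w ∈ L.W := F.lattice_W.symm ▸ hw
    rw [Expansion.mem_funs]
    refine ⟨∑ i, a i * L.coordFn i ⟨w, hw'⟩, ?_⟩
    have h := congrArg (fun r => M.expansion.expA k r * w) ha
    simp only [map_one, one_mul, smul_eq_mul, map_sum, map_mul, Expansion.Lattice.expA_coordFn,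
      mul_one, Finset.sum_mul] at h
    simp only [map_sum, map_mul, Expansion.Lattice.expA_coordFn, ← mul_assoc]
    exact h
  obtain ⟨q, hq, hJq⟩ := Ideal.exists_le_maximal J hJ
  have hsurj : Function.Surjective (M.expansion.coordInc k) := by
    intro x
    induction x using coordRing_induction M.expansion k with
    | h a r =>
      refine ⟨algebraMap k _ a * r, ?_⟩
      rw [map_mul, Expansion.coordInc_algebraMap, Algebra.algebraMap_self, RingHom.id_apply,
        Algebra.smul_def]
    | hadd x y hx hy =>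
      obtain ⟨a, rfl⟩ := hx
      obtain ⟨b, rfl⟩ := hy
      exact ⟨a + b, map_add _ _ _⟩
  have := Ideal.comap_isMaximal_of_surjective (M.expansion.coordInc k) hsurj (K := q)
  obtain ⟨ψ, hψ⟩ := Curve.exists_algHom_ker_eq (k := k) (q.comap (M.expansion.coordInc k))
  have hker : q ≤ RingHom.ker (M.expansion.evalPt k ψ) := by
    intro r hr
    obtain ⟨s, rfl⟩ := hsurj r
    rw [RingHom.mem_ker, Expansion.evalPt_coordInc, (hψ s).2 hr, map_zero]
  refine ⟨ψ, ?_⟩
  rintro _ ⟨r, rfl⟩
  have hr : M.expansion.expA k r ∈ L.W := by simpa using L.expA_mul_mem r h1'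
  refine (L.mem_vanish ⟨_, hr⟩).2 fun i => ?_
  have : L.coordFn i ⟨_, hr⟩ = r * L.coordFn i ⟨1, h1'⟩ := M.expansion.expA_injective k (by
    rw [Expansion.Lattice.expA_coordFn, map_mul, Expansion.Lattice.expA_coordFn, mul_one,
      mul_comm])
  rw [this, map_mul, RingHom.mem_ker.1 (hker (hJq (Ideal.subset_span ⟨i, rfl⟩))), mul_zero]

theorem exists_prod_of_finrank : ∀ (d : ℕ) {ι : Type u} {z : Cocycle (curveOver c k) ι}
    (F : Frame M z), (1 : LaurentSeries k) ∈ F.image →
    Module.Finite k (F.image.map (M.expansion.funs k).mkQ) →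
    Module.finrank k (F.image.map (M.expansion.funs k).mkQ) = d →
    ∃ x : Fin d → SchemeHomOver (𝟙 (Spec (CommRingCat.of k))) c,
      Pic.mk z = Pic.map (pullback.fst c (specAlg k k)) (∏ i, pointClass c (x i)) := by
  intro d
  induction d with
  | zero =>
    intro ι z F h1 hfin h0
    refine ⟨Fin.elim0, ?_⟩
    rw [Finset.prod_of_isEmpty, map_one]
    obtain ⟨F₁, hF₁⟩ := exists_frame_one M k
    rw [Frame.mk_eq_mk_of_image_eq F₁ F ?_]
    · rfl
    have hbot : F.image.map (M.expansion.funs k).mkQ = ⊥ := Submodule.finrank_eq_zero.1 h0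
    rw [hF₁]
    refine le_antisymm ?_ ?_
    · intro w hw
      have := Submodule.mem_map_of_mem (f := (M.expansion.funs k).mkQ) hw
      rw [hbot, Submodule.mem_bot, Submodule.mkQ_apply, Submodule.Quotient.mk_eq_zero] at this
      exact this
    · rw [← F.lattice_W]
      exact Expansion.funs_le_of_one_mem F.lattice (F.lattice_W.symm ▸ h1)
  | succ d IH =>
    intro ι z F h1 hfin hd
    have hne : ¬ F.image ≤ M.expansion.funs k := by
      intro hle
      have hbot : F.image.map (M.expansion.funs k).mkQ = ⊥ := by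
        rw [← le_bot_iff, Submodule.map_le_iff_le_comap, Submodule.comap_bot, Submodule.ker_mkQ]
        exact hle
      rw [hbot, finrank_bot] at hd
      omega
    obtain ⟨ψ, hS⟩ := exists_point_cut F h1 hne
    set L := F.lattice
    obtain ⟨j, hj⟩ := L.exists_notMem_vanish ψ
    have hle : L.vanish ψ ≤ F.image := (L.vanish_le ψ).trans F.lattice_W.le
    have hstep := Expansion.finrank_map_mkQ_step (S := M.expansion.funs k) (W := F.image) hS hle
      (F.lattice_W ▸ L.w_mem j) (fun h => hj ((L.mem_vanish ⟨L.w j, L.w_mem j⟩).1 h j))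
      (F.lattice_W ▸ L.le_vanish_sup_span ψ ⟨L.w j, L.w_mem j⟩ hj)
    obtain ⟨x, κ, z', F', p, q, hpq, hmk, him⟩ := exists_twist_down F ψ
    have hqp : q * p = 1 := by rw [mul_comm]; exact hpq
    have hq0 : HahnSeries.ofPowerSeries ℤ k q ≠ 0 :=
      ((IsUnit.of_mul_eq_one p hqp).map (HahnSeries.ofPowerSeries ℤ k)).ne_zero
    have h1v : (1 : LaurentSeries k) ∈ L.vanish ψ := hS ⟨1, map_one (M.expansion.expA k)⟩
    obtain ⟨F'', hF''⟩ := F'.exists_rescale hqp
      (him ▸ mem_scaleBy.2 ⟨1, h1v, mul_one _⟩)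
    have heq : F''.image = L.vanish ψ := by
      ext v
      rw [hF'', him, mem_scaleBy]
      exact ⟨fun ⟨w, hw, he⟩ => mul_left_cancel₀ hq0 he ▸ hw, fun h => ⟨v, h, rfl⟩⟩
    obtain ⟨xs, hxs⟩ := IH F'' (heq.symm ▸ h1v)
      (heq.symm ▸ Submodule.finiteDimensional_of_le (Submodule.map_mono hle))
      (by rw [heq]; omega)
    refine ⟨Fin.cons x xs, ?_⟩
    rw [Fin.prod_univ_succ, map_mul, hmk, hxs, mul_comm]
    simp only [Fin.cons_zero, Fin.cons_succ]

/-- A class with a cell is a sum of `g` points, for a fixed `g`. -/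
theorem exists_prod_pointClass (M : CurveModel c ε) :
    ∃ g : ℕ, ∀ (ξ : Pic (curveOver c k)) (W : Expansion.Cell M.expansion k), HasCell M ξ W →
      ∃ x : Fin g → SchemeHomOver (𝟙 (Spec (CommRingCat.of k))) c,
        ξ = Pic.map (pullback.fst c (specAlg k k)) (∏ i, pointClass c (x i)) := by
  refine ⟨Module.finrank k (LaurentSeries k ⧸ (M.expansion.funs k ⊔ tail k)), ?_⟩
  rintro ξ W ⟨ι, z, F, rfl, him⟩
  have h1 : (1 : LaurentSeries k) ∈ F.image := him.symm ▸ W.one_mem
  have hS : M.expansion.funs k ≤ F.image := by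
    rw [← F.lattice_W]
    exact Expansion.funs_le_of_one_mem F.lattice (F.lattice_W.symm ▸ h1)
  let e := Expansion.quotientEquiv hS (him.symm ▸ W.polar)
  have := Expansion.finite_quotient_funs_sup_tail (E := M.expansion) (K := k)
  exact exists_prod_of_finrank _ F h1 (Module.Finite.equiv e.symm) e.finrank_eq

end Fermat.Agent.Jac
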