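import Fermat.Agent.Jac.AJ.CellsTwist

/-!
Translates of the cell cover all classes on the curve over a field.
-/

set_option autoImplicit false
set_option linter.unusedVariables false
set_option linter.unusedSectionVars false

noncomputable section

open CategoryTheory CategoryTheory.Limits AlgebraicGeometry TopologicalSpace Opposite NeronModelInfra
open AlgebraicGeometry.RelPicard
open scoped TensorProduct

attribute [local instance 2000] HahnSeries.instAlgebra

namespace Fermat.Agent.Jac

universe u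

variable {k : Type u} [Field k] [IsAlgClosed k] {C : Scheme.{u}}
  {c : C ⟶ Spec (CommRingCat.of k)} [IsIntegral C] [IsProper c] [SmoothOfRelativeDimension 1 c]
  {ε : SchemeHomOver (𝟙 (Spec (CommRingCat.of k))) c} {M : CurveModel c ε}
  {K : Type u} [Field K] [Algebra k K] {ι : Type u} {z : Cocycle (curveOver c K) ι}

theorem scaleBy_scaleBy (u v : LaurentSeries K) (W : Submodule K (LaurentSeries K)) :
    scaleBy u (scaleBy v W) = scaleBy (u * v) W := by
  ext x
  simp only [mem_scaleBy]
  constructor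
  · rintro ⟨_, ⟨w, hw, rfl⟩, rfl⟩
    exact ⟨w, hw, mul_assoc u v w⟩
  · rintro ⟨w, hw, rfl⟩
    exact ⟨_, ⟨w, hw, rfl⟩, (mul_assoc u v w).symm⟩

/-- Iterated twists by the marked point. -/
theorem exists_twist_marked_pow (F : Frame M z) (m : ℕ) :
    ∃ (κ : Type u) (z' : Cocycle (curveOver c K) κ) (F' : Frame M z') (p : PowerSeries K),
      IsUnit p ∧
      Pic.mk z' = Pic.mk z * Pic.map (pullback.fst c (specAlg k K)) (pointClass c ε ^ m) ∧
        F'.image = scaleBy (HahnSeries.ofPowerSeries ℤ K (PowerSeries.X ^ m * p)) F.image := by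
  induction m with
  | zero =>
    refine ⟨ι, z, F, 1, isUnit_one, by rw [pow_zero, map_one, mul_one], ?_⟩
    ext x
    simp [mem_scaleBy]
  | succ m ih =>
    obtain ⟨κ, z', F', p, hp, hmk, him⟩ := ih
    obtain ⟨κ', z'', F'', p', hp', hmk', him'⟩ := exists_twist_marked F'
    refine ⟨κ', z'', F'', p' * p, hp'.mul hp, ?_, ?_⟩
    · rw [hmk', hmk, pow_succ, map_mul, mul_assoc]
    · rw [him', him, scaleBy_scaleBy, ← map_mul]
      congr 2
      ring

/-- Removing the kernel of the polar map by twisting down. -/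
theorem exists_hasCell_of_sup_tail : ∀ (d : ℕ) {ι : Type u} {z : Cocycle (curveOver c K) ι}
    (F : Frame M z), F.image ⊔ tail K = ⊤ →
    Module.finrank K (F.image ⊓ tail K : Submodule K (LaurentSeries K)) = d →
    ∃ (N : Pic C) (W : Expansion.Cell M.expansion K),
      HasCell M (Pic.mk z * Pic.map (pullback.fst c (specAlg k K)) N) W := by
  intro d
  induction d using Nat.strong_induction_on with
  | _ d IH =>
    intro ι z F hsup hd
    have hfin : Module.Finite K (F.image ⊓ tail K : Submodule K (LaurentSeries K)) :=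
      F.lattice_W ▸ F.lattice.finite_inf_tail
    by_cases h0 : F.image ⊓ tail K = ⊥
    · obtain ⟨W, hW⟩ := exists_hasCell_of_polar F (polar_of_sup_inf hsup h0)
      exact ⟨1, W, by rwa [map_one, mul_one]⟩
    obtain ⟨v, hv, hv0⟩ := (Submodule.ne_bot_iff _).1 h0
    have hvW : v ∈ F.lattice.W := F.lattice_W ▸ hv.1
    obtain ⟨j, hj⟩ : ∃ j, F.lattice.coordFn j ⟨v, hvW⟩ ≠ 0 := by
      by_contra h
      simp only [not_exists, not_not] at h
      refine hv0 ((F.lattice.coordFn_eq_sum ⟨v, hvW⟩).trans ?_)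
      simp [h]
    obtain ⟨ψ, hψ⟩ := Expansion.exists_evalPt_ne_zero hj
    obtain ⟨x, κ, z', F', p, q, hpq, hmk, him⟩ := exists_twist_down F ψ
    have hqp : q * p = 1 := by rw [mul_comm]; exact hpq
    have hsup' : F'.image ⊔ tail K = ⊤ := by
      rw [him]
      refine scaleBy_sup_tail q p hqp (eq_top_iff.2 ?_)
      rw [← hsup]
      refine sup_le ?_ le_sup_right
      rw [← F.lattice_W]
      refine (F.lattice.le_vanish_sup_span ψ ⟨v, hvW⟩ hψ).trans (sup_le le_sup_left ?_)
      rw [Submodule.span_singleton_le_iff_mem]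
      exact Submodule.mem_sup_right hv.2
    have hlt : Module.finrank K (F'.image ⊓ tail K : Submodule K (LaurentSeries K)) < d := by
      rw [← hd, him, scaleBy_inf_tail q p hqp, finrank_scaleBy]
      · refine Submodule.finrank_lt_finrank_of_lt (lt_of_le_of_ne ?_ fun h => ?_)
        · exact inf_le_inf_right _ ((F.lattice.vanish_le ψ).trans F.lattice_W.le)
        · have : v ∈ F.lattice.vanish ψ ⊓ tail K := h.symm ▸ hv
          exact hψ ((F.lattice.mem_vanish ⟨v, hvW⟩).1 this.1 j)
      · exact ((IsUnit.of_mul_eq_one p hqp).map (HahnSeries.ofPowerSeries ℤ K)).ne_zero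
    obtain ⟨N, W, hW⟩ := IH _ hlt F' hsup' rfl
    refine ⟨N * (pointClass c x)⁻¹, W, ?_⟩
    convert hW using 1
    rw [hmk, map_mul, map_inv, mul_mul_mul_comm, mul_inv_cancel, mul_one]

/-- Every class on the curve over a field has a cell after a twist by a constant class. -/
theorem exists_twist_hasCell (M : CurveModel c ε) (K : Type u) [Field K] [Algebra k K]
    (ξ : Pic (curveOver c K)) : ∃ (N : Pic C) (W : Expansion.Cell M.expansion K),
      HasCell M (ξ * Pic.map (pullback.fst c (specAlg k K)) N) W := by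
  obtain ⟨z, rfl⟩ := Pic.mk_surjective ξ
  obtain ⟨F⟩ := exists_frame_field M z
  obtain ⟨N₀, h, hst, hmem⟩ := F.lattice.exists_staircase
  rw [F.lattice_W] at hmem
  obtain ⟨κ, z', F', p, hp, hmk, him⟩ := exists_twist_marked_pow F N₀
  have hsup : F'.image ⊔ tail K = ⊤ := by
    refine sup_tail_eq_top _ fun j => ?_
    have hX : HahnSeries.ofPowerSeries ℤ K (PowerSeries.X ^ N₀ * p) =
        HahnSeries.single (N₀ : ℤ) (1 : K) * HahnSeries.ofPowerSeries ℤ K p := by
      rw [map_mul, map_pow, HahnSeries.ofPowerSeries_X, HahnSeries.single_pow]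
      simp
    have hs : PoleLE (HahnSeries.single (N₀ : ℤ) (1 : K)) (-(N₀ : ℤ)) := fun i hi =>
      HahnSeries.coeff_single_of_ne (by omega)
    have hp0 : (PowerSeries.constantCoeff p) ≠ 0 :=
      (PowerSeries.isUnit_iff_constantCoeff.1 hp).ne_zero
    have h1 := (hs.mul (poleLE_ofPowerSeries p)).mul (hst.pole (N₀ + j) (by omega))
    have h2 := coeff_mul_bottom (hs.mul (poleLE_ofPowerSeries p)) (hst.pole (N₀ + j) (by omega))
    refine ⟨_, him ▸ mem_scaleBy.2 ⟨_, hmem (N₀ + j) (by omega), rfl⟩, ?_, ?_⟩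
    · rw [hX]
      exact h1.mono (by push_cast; omega)
    · rw [hX]
      rw [hst.lead (N₀ + j) (by omega), mul_one, coeff_mul_bottom hs (poleLE_ofPowerSeries p),
        neg_neg, HahnSeries.coeff_single_same, one_mul, neg_zero] at h2
      rw [show -(j : ℤ) = -(-(N₀ : ℤ) + 0 + ((N₀ + j : ℕ) : ℤ)) by push_cast; ring, h2]
      rw [← Nat.cast_zero, HahnSeries.ofPowerSeries_apply_coeff,
        PowerSeries.coeff_zero_eq_constantCoeff_apply]
      exact hp0
  obtain ⟨N, W, hW⟩ := exists_hasCell_of_sup_tail _ F' hsup rfl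
  exact ⟨pointClass c ε ^ N₀ * N, W, by rwa [map_mul, ← mul_assoc, ← hmk]⟩

end Fermat.Agent.Jac
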