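import Fermat.Agent.Jac.AJ.Divisor
import Fermat.Agent.Jac.Curve.Model

/-!
The class of a rational point in the Picard group.
-/

set_option autoImplicit false
set_option linter.unusedVariables false
set_option linter.unusedSectionVars false

noncomputable section

open CategoryTheory AlgebraicGeometry TopologicalSpace Opposite NeronModelInfra

namespace Fermat.Agent.Jac

universe u

variable {k : Type u} [Field k] [IsAlgClosed k] {C : Scheme.{u}}
  (c : C ⟶ Spec (CommRingCat.of k)) [IsIntegral C] [IsProper c] [SmoothOfRelativeDimension 1 c]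
  (x : SchemeHomOver (𝟙 (Spec (CommRingCat.of k))) c)

theorem apply_eq_markedPoint (q : ↥(Spec (CommRingCat.of k))) : x.1 q = Curve.markedPoint c x := by
  rw [Subsingleton.elim q (IsLocalRing.closedPoint k)]
  rfl

theorem genericPoint_notMem_range_point : genericPoint C ∉ Set.range x.1 := by
  rintro ⟨q, hq⟩
  exact Curve.genericPoint_ne_markedPoint c x (hq.symm.trans (apply_eq_markedPoint c x q))

/-- The kernel of evaluation at a rational point is the maximal ideal. -/
theorem ker_stalkMap_point (q : ↥(Spec (CommRingCat.of k))) :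
    RingHom.ker (x.1.stalkMap q).hom = IsLocalRing.maximalIdeal (C.presheaf.stalk (x.1 q)) := by
  refine le_antisymm (IsLocalRing.le_maximalIdeal (RingHom.ker_ne_top _)) fun a ha => ?_
  have hF : IsField ((Spec (CommRingCat.of k)).presheaf.stalk q) := by
    rw [Subsingleton.elim q (genericPoint ↥(Spec (CommRingCat.of k)))]
    exact (inferInstance : Field (Spec (CommRingCat.of k)).functionField).toIsField
  letI := hF.toField
  rw [RingHom.mem_ker]
  by_contra h
  exact (IsLocalRing.mem_maximalIdeal a).1 ha
    ((isUnit_map_iff (x.1.stalkMap q).hom a).1 (isUnit_iff_ne_zero.2 h))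

theorem exists_isEquation_point (y : C) :
    ∃ U : C.Opens, y ∈ U ∧ ∃ f, IsEquation x.1 U f := by
  by_cases hy : y = Curve.markedPoint c x
  swap
  · refine ⟨⟨{Curve.markedPoint c x}ᶜ, (Curve.isClosed_markedPoint c x).isOpen_compl⟩, hy, 1,
      IsEquation.one ?_⟩
    rintro z hz ⟨q, rfl⟩
    exact hz (apply_eq_markedPoint c x q)
  obtain ⟨C1, hC1, h1, t, ht0, htd, htmem⟩ := Curve.exists_equation c x
  refine ⟨C1, hy ▸ h1, t, ?_, ?_⟩
  · intro z hz hn
    refine (C.mem_basicOpen t z hz).1 ((htmem z hz).2 ?_)
    rintro rfl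
    exact hn ⟨_, apply_eq_markedPoint c x (IsLocalRing.closedPoint k)⟩
  · intro q hq
    obtain rfl : q = IsLocalRing.closedPoint k := Subsingleton.elim _ _
    rw [ker_stalkMap_point]
    have hnu : ∀ a : Γ(C, C1), Curve.evalMarked c x C1 h1 a = 0 ↔
        ¬ IsUnit (germAt _ hq a) := fun a => by
      rw [Curve.evalMarked_eq_zero_iff, C.mem_basicOpen a _ h1]
      rfl
    refine le_antisymm ((Ideal.span_singleton_le_iff_mem _).2
      ((IsLocalRing.mem_maximalIdeal _).2 ((hnu t).1 ht0))) fun z hz => ?_
    letI := C.presheaf.algebra_section_stalk (⟨_, hq⟩ : C1)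
    have := hC1.isLocalization_stalk ⟨_, hq⟩
    obtain ⟨⟨a, s⟩, has⟩ := IsLocalization.surj
      (hC1.primeIdealOf ⟨_, hq⟩).asIdeal.primeCompl z
    have hs : IsUnit (germAt _ hq (s : Γ(C, C1))) :=
      IsLocalization.map_units (C.presheaf.stalk _) s
    have has' : z * germAt _ hq (s : Γ(C, C1)) = germAt _ hq a := has
    have ha : germAt _ hq a ∈ IsLocalRing.maximalIdeal _ := has' ▸ Ideal.mul_mem_right _ _ hz
    obtain ⟨d, rfl⟩ := htd a ((hnu a).2 ((IsLocalRing.mem_maximalIdeal _).1 ha))
    rw [Ideal.mem_span_singleton]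
    refine hs.dvd_mul_right.1 ?_
    rw [has', map_mul]
    exact dvd_mul_right _ _

/-- The class `O(x)` of a rational point. -/
def pointClass : Pic C := divisorClass x.1

/-- A line bundle with a section whose divisor is exactly `x` has class `O(x)`. -/
theorem pointClass_eq {ι : Type u} (c' : Cocycle C ι) (s : Sec c' ⊤)
    (hunit : ∀ i V hW hi, Curve.markedPoint c x ∉ V → IsUnit (s.val i V hW hi))
    (hord : ∀ i V hW hi (hx : Curve.markedPoint c x ∈ V),
      Ideal.span {germAt _ hx (s.val i V hW hi)} = IsLocalRing.maximalIdeal _) :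
    Pic.mk c' = pointClass c x := by
  refine mk_eq_divisorClass (genericPoint_notMem_range_point c x) c' s fun i => ⟨?_, ?_⟩
  · intro y hy hn
    let W : C.Opens := c'.U i ⊓ ⟨{Curve.markedPoint c x}ᶜ,
      (Curve.isClosed_markedPoint c x).isOpen_compl⟩
    have hyW : y ∈ W := ⟨hy, fun h => hn ⟨IsLocalRing.closedPoint k,
      (apply_eq_markedPoint c x _).trans h.symm⟩⟩
    have h1 := (hunit i W le_top inf_le_left fun h => h.2 rfl).map (germAt y hyW)
    rwa [← s.res_val i (c'.U i) W inf_le_left le_top le_rfl, germAt_res] at h1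
  · intro q hq
    obtain rfl : q = IsLocalRing.closedPoint k := Subsingleton.elim _ _
    rw [ker_stalkMap_point]
    exact hord i (c'.U i) le_top le_rfl hq

/-- `O(x)` has a section whose divisor is exactly `x`. -/
theorem exists_sec_pointClass : ∃ (c' : Cocycle C C) (s : Sec c' ⊤),
    (∀ i, IsEquation x.1 (c'.U i) (s.val i (c'.U i) le_top le_rfl)) ∧
      Pic.mk c' = pointClass c x :=
  exists_sec_divisorClass (genericPoint_notMem_range_point c x) (exists_isEquation_point c x)

end Fermat.Agent.Jac
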