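import Fermat.Agent.Jac.AJ.CellsAlg
import Fermat.Agent.Jac.AJ.PointClass
import Fermat.Agent.Jac.PicField

/-!
Bundles of rational points, their frames and their effect on lattices.
-/

set_option autoImplicit false
set_option linter.unusedVariables false
set_option linter.unusedSectionVars false

noncomputable section

open CategoryTheory CategoryTheory.Limits AlgebraicGeometry TopologicalSpace Opposite NeronModelInfra
open AlgebraicGeometry.RelPicard
open scoped TensorProduct

attribute [local instance 2000] HahnSeries.instAlgebra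

namespace Fermat.Agent.Jac

universe u

namespace Sec

variable {Y : Scheme.{u}} {ι : Type u} {c : Cocycle Y ι}

theorem germAt_val {W V : Y.Opens} (x : Sec c W) (i : ι) (hW : V ≤ W) (hi : V ≤ c.U i) (p : Y)
    (hp : p ∈ V) : germAt p hp (x.val i V hW hi) =
      germAt p (show p ∈ W ⊓ c.U i from ⟨hW hp, hi hp⟩)
        (x.val i (W ⊓ c.U i) inf_le_left inf_le_right) := by
  rw [← x.res_val i (W ⊓ c.U i) V (le_inf hW hi) inf_le_left inf_le_right, germAt_res]

theorem germAt_pair {W : Y.Opens} (η : Sec c.inv W) (x : Sec c W) (p : Y) (hp : p ∈ W) (i : ι)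
    (hi : p ∈ c.U i) : germAt p hp (pair η x) =
      germAt p (show p ∈ W ⊓ c.U i from ⟨hp, hi⟩) (η.val i (W ⊓ c.U i) inf_le_left inf_le_right) *
        germAt p (show p ∈ W ⊓ c.U i from ⟨hp, hi⟩) (x.val i (W ⊓ c.U i) inf_le_left inf_le_right) := by
  have h := congrArg (germAt p (show p ∈ W ⊓ c.U i from ⟨hp, hi⟩))
    (res_pair η x i (W ⊓ c.U i) inf_le_left inf_le_right)
  rwa [germAt_res, map_mul] at h

theorem germAt_restrict_top (s : Sec c ⊤) {W : Y.Opens} (i : ι) (p : Y) (hp : p ∈ W)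
    (hi : p ∈ c.U i) :
    germAt p (show p ∈ W ⊓ c.U i from ⟨hp, hi⟩)
        ((s.restrict (le_top : W ≤ ⊤)).val i (W ⊓ c.U i) inf_le_left inf_le_right) =
      germAt p hi (s.val i (c.U i) le_top le_rfl) := by
  rw [restrict_val, ← s.res_val i (c.U i) (W ⊓ c.U i) inf_le_right le_top le_rfl, germAt_res]

theorem exists_pair_eq [IsIntegral Y] (s : Sec c ⊤)
    (hne : ∀ i p (hi : p ∈ c.U i), germAt p hi (s.val i (c.U i) le_top le_rfl) ≠ 0)
    {W : Y.Opens} (f : Γ(Y, W))
    (hdvd : ∀ i p (hp : p ∈ W) (hi : p ∈ c.U i),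
      germAt p hi (s.val i (c.U i) le_top le_rfl) ∣ germAt p hp f) :
    ∃ y : Sec c.inv W, pair y (s.restrict le_top) = f := by
  have hb : ∀ i V (hi : V ≤ c.U i) p (hp : p ∈ V), germAt p hp (s.val i V le_top hi) ≠ 0 := by
    intro i V hi p hp
    rw [← s.res_val i (c.U i) V hi le_top le_rfl, germAt_res]
    exact hne i p (hi hp)
  have hex : ∀ i V (hW : V ≤ W) (hi : V ≤ c.U i),
      ∃ y : Γ(Y, V), y * s.val i V le_top hi = res hW f := fun i V hW hi =>
    exists_mul_eq_of_dvd (hb i V hi) fun p hp => by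
      rw [← s.res_val i (c.U i) V hi le_top le_rfl, germAt_res, germAt_res]
      exact hdvd i p (hW hp) (hi hp)
  choose y hy using hex
  refine ⟨⟨y, fun i V V' h hW hi => cancel_of_germ_ne_zero (hb i V' (h.trans hi)) ?_,
    fun i j V hW hi hj => cancel_of_germ_ne_zero (hb i V hi) ?_⟩, pair_eq fun i V hW hi => ?_⟩
  · rw [hy, ← s.res_val i V V' h le_top hi, ← map_mul, hy, res_res]
  · change c.g j i V hj hi * _ * _ = _
    rw [mul_comm (c.g j i V hj hi), mul_assoc, s.g_val, hy, hy]
  · exact (hy i V hW hi).symm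

theorem isGen_restrict_top [IsIntegral Y] (s : Sec c ⊤) {W : Y.Opens}
    (hu : ∀ i p, p ∈ W → ∀ hi : p ∈ c.U i,
      IsUnit (germAt p hi (s.val i (c.U i) le_top le_rfl))) :
    (s.restrict (le_top : W ≤ ⊤)).IsGen := fun i V hW hi => by
  have hg : ∀ p (hp : p ∈ V), IsUnit (germAt p hp (s.val i V le_top hi)) := fun p hp => by
    rw [← s.res_val i (c.U i) V hi le_top le_rfl, germAt_res]
    exact hu i p (hW hp) (hi hp)
  obtain ⟨r, hr⟩ := exists_mul_eq_of_dvd (a := (1 : Γ(Y, V))) (fun p hp => (hg p hp).ne_zero)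
    fun p hp => (hg p hp).dvd
  exact IsUnit.of_mul_eq_one r (by rw [mul_comm]; exact hr)

theorem exists_isUnit_germAt_pair (s : Sec c ⊤) {W : Y.Opens} (hW : IsAffineOpen W) (p : Y)
    (hp : p ∈ W) (i : ι) (hi : p ∈ c.U i)
    (hu : IsUnit (germAt p hi (s.val i (c.U i) le_top le_rfl))) :
    ∃ y : Sec c.inv W, IsUnit (germAt p hp (pair y (s.restrict le_top))) := by
  obtain ⟨n, G, H, hsum⟩ := exists_dualBasis c hW
  let x : Sec c W := s.restrict le_top
  have key : x = ∑ l, pair (H l) x • G l := by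
    simp only [← pair_smul_comm (H _) (G _) x, ← Finset.sum_smul, hsum, one_smul]
  by_contra hcon
  simp only [not_exists] at hcon
  rw [← germAt_restrict_top s i p hp hi] at hu
  refine (IsLocalRing.mem_maximalIdeal _).1 ?_ hu
  have hval : ∀ (S : Finset (Fin n)), (∑ l ∈ S, pair (H l) x • G l).val i (W ⊓ c.U i)
      inf_le_left inf_le_right = ∑ l ∈ S, res inf_le_left (pair (H l) x) *
        (G l).val i (W ⊓ c.U i) inf_le_left inf_le_right := by
    intro S
    induction S using Finset.induction_on with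
    | empty => simp
    | insert a S ha ih => rw [Finset.sum_insert ha, add_val, smul_val, ih, Finset.sum_insert ha]
  change germAt p _ (x.val i _ _ _) ∈ _
  rw [key, hval, map_sum]
  refine Ideal.sum_mem _ fun l _ => ?_
  rw [map_mul, germAt_res]
  exact Ideal.mul_mem_right _ _ ((IsLocalRing.mem_maximalIdeal _).2 (hcon (H l)))

/-- Pulled-back pairings generate all pairings with a pulled-back section. -/
theorem pair_pullSec_mem_span {X : Scheme.{u}} (f : X ⟶ Y) {W : Y.Opens} (hW : IsAffineOpen W)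
    (x : Sec c W) (y : Sec (c.pull f).inv (f ⁻¹ᵁ W)) :
    pair y (pullSec f c x) ∈
      Ideal.span (Set.range fun H : Sec c.inv W => appLEHom f le_rfl (pair H x)) := by
  obtain ⟨n, G, H, hsum⟩ := exists_dualBasis c hW
  let x' := pullSec f c x
  let H' := fun l => pullInv f (H l)
  let G' := fun l => pullSec f c (G l)
  have hsum' : ∑ l, pair (H' l) (G' l) = 1 := by
    simp only [H', G', pair_pullSec, ← map_sum, hsum, map_one]
  have key : x' = ∑ l, pair (H' l) x' • G' l := by
    simp only [← pair_smul_comm (H' _) (G' _) x', ← Finset.sum_smul, hsum', one_smul]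
  rw [show pullSec f c x = x' from rfl, key, pair_sum_right]
  refine Ideal.sum_mem _ fun l _ => ?_
  rw [pair_smul_right]
  refine Ideal.mul_mem_right _ _ (Ideal.subset_span ⟨H l, ?_⟩)
  simp only [H', x', pair_pullSec]

end Sec

variable {k : Type u} [Field k] [IsAlgClosed k] {C : Scheme.{u}}
  {c : C ⟶ Spec (CommRingCat.of k)} [IsIntegral C] [IsProper c] [SmoothOfRelativeDimension 1 c]
  {ε : SchemeHomOver (𝟙 (Spec (CommRingCat.of k))) c} {M : CurveModel c ε}
  {K : Type u} [Field K] [Algebra k K]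

/-- The rational point of a character of the functions on the affine part. -/
theorem exists_point_of_algHom (M : CurveModel c ε) (ψ : FunRing c M.C0 →ₐ[k] k) :
    ∃ x : SchemeHomOver (𝟙 (Spec (CommRingCat.of k))) c, ∃ hx : Curve.markedPoint c x ∈ M.C0,
      ∀ r : Γ(C, M.C0), ψ (toFunRing c M.C0 r) = 0 ↔ ¬ IsUnit (germAt _ hx r) := by
  let f : Γ(C, M.C0) →+* k := (ψ : FunRing c M.C0 →+* k).comp (toFunRing c M.C0).toRingHom
  have hf : ∀ a, f (structureHom c M.C0 a) = a := fun a => ψ.commutes a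
  let x1 : Spec (CommRingCat.of k) ⟶ C := Spec.map (CommRingCat.ofHom f) ≫ M.affine0.fromSpec
  have hx1 : x1 ≫ c = 𝟙 _ := by
    rw [Category.assoc, ← IsAffineOpen.SpecMap_appLE_fromSpec c (isAffineOpen_top _) M.affine0
      (fun _ _ => trivial), ← Category.assoc, ← Spec.map_comp, IsAffineOpen.fromSpec_top,
      Scheme.isoSpec_Spec_inv, ← Spec.map_comp, ← Spec.map_id]
    congr 1
    ext a
    exact hf a
  let q : PrimeSpectrum Γ(C, M.C0) :=
    (Spec.map (CommRingCat.ofHom f)) (IsLocalRing.closedPoint k)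
  have hq : Curve.markedPoint c (⟨x1, hx1⟩ : SchemeHomOver _ c) = M.affine0.fromSpec q := rfl
  have hmem : M.affine0.fromSpec q ∈ M.C0 := by
    rw [← SetLike.mem_coe, ← M.affine0.range_fromSpec]; exact ⟨q, rfl⟩
  refine ⟨⟨x1, hx1⟩, hq ▸ hmem, fun r => ?_⟩
  have hbo := C.mem_basicOpen r (M.affine0.fromSpec q) hmem
  change _ ↔ ¬ IsUnit (germAt (M.affine0.fromSpec q) hmem r)
  refine Iff.trans ?_ (not_congr hbo)
  have h2 : M.affine0.fromSpec q ∈ C.basicOpen r ↔ r ∉ q.asIdeal := by
    rw [← PrimeSpectrum.mem_basicOpen r q, ← M.affine0.fromSpec_preimage_basicOpen]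
    rfl
  rw [h2, not_not]
  change f r = 0 ↔ r ∈ (IsLocalRing.closedPoint k).asIdeal.comap f
  rw [Ideal.mem_comap]
  change f r = 0 ↔ f r ∈ IsLocalRing.maximalIdeal k
  rw [IsLocalRing.maximalIdeal_eq_bot, Ideal.mem_bot]

namespace CurveModel

theorem coordFun_coordInc (M : CurveModel c ε) (r : Γ(C, M.C0)) :
    M.coordFun K (M.expansion.coordInc K (toFunRing c M.C0 r)) =
      appLEHom (pullback.fst c (specAlg k K)) le_rfl r := by
  change tensorToFun c K M.C0 ((1 : K) ⊗ₜ toFunRing c M.C0 r) = _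
  rw [tensorToFun_tmul, map_one, one_mul]
  rfl

theorem exp1A_liftFun (M : CurveModel c ε) (r : Γ(C, M.C1)) :
    M.exp1A K (appLEHom (pullback.fst c (specAlg k K)) le_rfl r) =
      PowerSeries.map (algebraMap k K) (M.exp1 r) :=
  liftExp_liftFun M.affine1 _ _ _ (toFunRing c M.C1 r)

theorem markedPoint_mem_C1 (M : CurveModel c ε) : Curve.markedPoint c ε ∈ M.C1 :=
  M.eps_mem (show IsLocalRing.closedPoint k ∈ (⊤ : (Spec (CommRingCat.of k)).Opens) from trivial)

theorem markedPoint_notMem_C0 (M : CurveModel c ε) : Curve.markedPoint c ε ∉ M.C0 := fun h => by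
  have : Curve.markedPoint c ε ∈ (M.C0 : Set C) := h
  rw [M.coe_C0] at this
  exact this ⟨_, rfl⟩

theorem constantCoeff_exp1_eq_zero_iff (M : CurveModel c ε) (r : Γ(C, M.C1)) :
    PowerSeries.constantCoeff (M.exp1 r) = 0 ↔ ¬ IsUnit (germAt _ M.markedPoint_mem_C1 r) := by
  rw [M.constantCoeff_exp1]
  exact (Curve.evalMarked_eq_zero_iff c ε M.C1 M.markedPoint_mem_C1 r).trans
    (not_congr (C.mem_basicOpen r _ _))

end CurveModel

/-- The effect of a rational point bundle on expansions. -/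
structure PointFrame (M : CurveModel c ε) (K : Type u) [Field K] [Algebra k K]
    (x : SchemeHomOver (𝟙 (Spec (CommRingCat.of k))) c) where
  ι : Type u
  z : Cocycle (curveOver c K) ι
  mk_eq : Pic.mk z = Pic.map (pullback.fst c (specAlg k K)) (pointClass c x)
  F : Frame M z
  s : Sec z (M.D0 K)

section Build

variable (x : SchemeHomOver (𝟙 (Spec (CommRingCat.of k))) c) {ι : Type u} {c' : Cocycle C ι}
  {s : Sec c' ⊤} (hs : ∀ i, IsEquation x.1 (c'.U i) (s.val i (c'.U i) le_top le_rfl))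

include hs

theorem germ_ne_zero_of_isEquation (i : ι) (p : C) (hi : p ∈ c'.U i) :
    germAt p hi (s.val i (c'.U i) le_top le_rfl) ≠ 0 :=
  (hs i).germ_ne_zero (genericPoint_notMem_range_point c x) p hi

theorem isUnit_germ_of_ne (i : ι) (p : C) (hp : p ≠ Curve.markedPoint c x) (hi : p ∈ c'.U i) :
    IsUnit (germAt p hi (s.val i (c'.U i) le_top le_rfl)) :=
  (hs i).unit p hi fun ⟨q, hq⟩ => hp (hq.symm.trans (apply_eq_markedPoint c x q))

theorem germ_mem_maximalIdeal (i : ι) (hi : Curve.markedPoint c x ∈ c'.U i) :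
    Ideal.span {germAt _ hi (s.val i (c'.U i) le_top le_rfl)} = IsLocalRing.maximalIdeal _ :=
  ((hs i).span (IsLocalRing.closedPoint k) hi).trans (ker_stalkMap_point c x _)

theorem not_isUnit_germ_pair {W : C.Opens} (hx : Curve.markedPoint c x ∈ W) (y : Sec c'.inv W) :
    ¬ IsUnit (germAt _ hx (Sec.pair y (s.restrict le_top))) := by
  obtain ⟨i, hi⟩ := c'.cover (Curve.markedPoint c x)
  rw [Sec.germAt_pair y _ _ hx i hi, Sec.germAt_restrict_top s i _ hx hi]
  refine (IsLocalRing.mem_maximalIdeal _).1 (Ideal.mul_mem_left _ _ ?_)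
  rw [← germ_mem_maximalIdeal x hs i hi]
  exact Ideal.mem_span_singleton_self _

theorem exists_pair_eq_of_not_isUnit {W : C.Opens} (f : Γ(C, W))
    (hf : ∀ hx : Curve.markedPoint c x ∈ W, ¬ IsUnit (germAt _ hx f)) :
    ∃ y : Sec c'.inv W, Sec.pair y (s.restrict le_top) = f := by
  refine Sec.exists_pair_eq s (germ_ne_zero_of_isEquation x hs) f fun i p hp hi => ?_
  by_cases h : p = Curve.markedPoint c x
  · subst h
    rw [← Ideal.mem_span_singleton, germ_mem_maximalIdeal x hs i hi, IsLocalRing.mem_maximalIdeal]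
    exact hf hp
  · exact (isUnit_germ_of_ne x hs i p h hi).dvd

/-- The value of the divisor section in a frame. -/
theorem toLaurent_pullSec (F : Frame M (c'.pull (pullback.fst c (specAlg k K)))) :
    ∃ q : PowerSeries K,
      F.toLaurent (pullSec (pullback.fst c (specAlg k K)) c' (s.restrict (le_top : M.C0 ≤ ⊤))) =
        HahnSeries.ofPowerSeries ℤ K q ∧
      (Curve.markedPoint c x = Curve.markedPoint c ε →
        ∃ p, IsUnit p ∧ q = PowerSeries.X * p) ∧
      (Curve.markedPoint c x ≠ Curve.markedPoint c ε → IsUnit q) := by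
  let f := pullback.fst c (specAlg k K)
  let s1 : Sec (c'.pull f) (M.D1 K) := pullSec f c' (s.restrict (le_top : M.C1 ≤ ⊤))
  let s0 : Sec (c'.pull f) (M.D0 K) := pullSec f c' (s.restrict (le_top : M.C0 ≤ ⊤))
  have hcompat : s0.restrict (M.D01_le0 K) = s1.restrict (M.D01_le1 K) := by
    simp only [s0, s1, pullSec_restrict]
    rfl
  set a := Sec.pair F.η s1
  let q : PowerSeries K := M.exp1A K a * ↑F.isUnit_g.unit⁻¹
  have hq : F.toLaurent s0 = HahnSeries.ofPowerSeries ℤ K q := by
    have e2 : HahnSeries.ofPowerSeries ℤ K ↑F.isUnit_g.unit⁻¹ = ↑F.den⁻¹ := by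
      refine (Units.inv_eq_of_mul_eq_one_right ?_).symm
      rw [Frame.den_eq, CurveModel.exp01A_res1, ← map_mul, IsUnit.mul_val_inv, map_one]
    rw [Frame.toLaurent, hcompat, Sec.pair_restrict, CurveModel.exp01A_res1, map_mul, e2]
  have hcross : ∀ y : Sec c'.inv M.C1, M.exp1A K a * M.exp1A K (Sec.pair (Sec.pullInv f y) F.s) =
      M.exp1A K (Sec.pair F.η F.s) *
        PowerSeries.map (algebraMap k K) (M.exp1 (Sec.pair y (s.restrict le_top))) := by
    intro y
    rw [← M.exp1A_liftFun, ← map_mul, ← map_mul]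
    congr 1
    rw [Sec.pair_mul_pair_comm, Sec.pair_pullSec]
  refine ⟨q, hq, fun heq => ?_, fun hne => ?_⟩
  · -- the equation of the marked point is a pairing
    have hall : ∀ hx : Curve.markedPoint c x ∈ M.C1, ¬ IsUnit (germAt _ hx M.t) := by
      rw [heq]
      intro hx
      exact (M.constantCoeff_exp1_eq_zero_iff _).1 (by rw [M.exp1_t, PowerSeries.constantCoeff_X])
    obtain ⟨y, hy⟩ := exists_pair_eq_of_not_isUnit x hs M.t hall
    have h0 : PowerSeries.constantCoeff (M.exp1A K a) = 0 := by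
      have hle : Ideal.span (Set.range fun H : Sec c'.inv M.C1 =>
          appLEHom f le_rfl (Sec.pair H (s.restrict (le_top : M.C1 ≤ ⊤)))) ≤
          RingHom.ker ((PowerSeries.constantCoeff).comp (M.exp1A K)) := by
        refine Ideal.span_le.2 ?_
        rintro _ ⟨H, rfl⟩
        rw [SetLike.mem_coe, RingHom.mem_ker, RingHom.comp_apply, M.exp1A_liftFun]
        rw [← PowerSeries.coeff_zero_eq_constantCoeff_apply, PowerSeries.coeff_map,
          PowerSeries.coeff_zero_eq_constantCoeff_apply]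
        rw [(M.constantCoeff_exp1_eq_zero_iff _).2, map_zero]
        have hx : Curve.markedPoint c x ∈ M.C1 := heq ▸ M.markedPoint_mem_C1
        have := not_isUnit_germ_pair x hs hx H
        revert hx
        rw [heq]
        exact fun _ this => this
      exact hle (Sec.pair_pullSec_mem_span f M.affine1 _ F.η)
    obtain ⟨b, hb⟩ := PowerSeries.X_dvd_iff.2 h0
    have hc := hcross y
    rw [hy, M.exp1_t, PowerSeries.map_X, hb, mul_assoc,
      mul_comm (M.exp1A K (Sec.pair F.η F.s))] at hc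
    have hbu : IsUnit b := (IsUnit.mul_iff.1
      ((mul_left_cancel₀ PowerSeries.X_ne_zero hc).symm ▸ F.isUnit_pair)).1
    exact ⟨b * ↑F.isUnit_g.unit⁻¹, hbu.mul (Units.isUnit _), by
      simp only [q]; rw [hb, mul_assoc]⟩
  · obtain ⟨i, hi⟩ := c'.cover (Curve.markedPoint c ε)
    obtain ⟨y, hy⟩ := Sec.exists_isUnit_germAt_pair s M.affine1 _ M.markedPoint_mem_C1 i hi
      (isUnit_germ_of_ne x hs i _ (Ne.symm hne) hi)
    have hu : IsUnit (PowerSeries.map (algebraMap k K) (M.exp1 (Sec.pair y (s.restrict le_top)))) := by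
      refine IsUnit.map _ (PowerSeries.isUnit_iff_constantCoeff.2 (isUnit_iff_ne_zero.2 ?_))
      rw [Ne, M.constantCoeff_exp1_eq_zero_iff, not_not]
      exact hy
    have hau := (IsUnit.mul_iff.1 ((hcross y).symm ▸ F.isUnit_pair.mul hu)).1
    exact hau.mul (Units.isUnit _)

end Build

/-- The frame of a rational point away from the marked one. -/
theorem exists_pointFrame (M : CurveModel c ε) (K : Type u) [Field K] [Algebra k K]
    (x : SchemeHomOver (𝟙 (Spec (CommRingCat.of k))) c) (ψ : FunRing c M.C0 →ₐ[k] k)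
    (hx : Curve.markedPoint c x ∈ M.C0)
    (hψ : ∀ r : Γ(C, M.C0), ψ (toFunRing c M.C0 r) = 0 ↔ ¬ IsUnit (germAt _ hx r)) :
    ∃ P : PointFrame M K x, ∃ p : PowerSeries K, IsUnit p ∧
      P.F.toLaurent P.s = HahnSeries.ofPowerSeries ℤ K p ∧
      (∀ y, ∃ r, M.expansion.evalPt K ψ r = 0 ∧ Sec.pair y P.s = M.coordFun K r) ∧
      ∀ r, M.expansion.evalPt K ψ r = 0 → ∃ y, Sec.pair y P.s = M.coordFun K r := by
  obtain ⟨c', s, hs, hmk⟩ := exists_sec_pointClass c x
  set f := pullback.fst c (specAlg k K)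
  obtain ⟨F⟩ := exists_frame_field M (c'.pull f)
  obtain ⟨q, hq, -, hq'⟩ := toLaurent_pullSec x hs F
  have hne : Curve.markedPoint c x ≠ Curve.markedPoint c ε := fun h =>
    M.markedPoint_notMem_C0 (h ▸ hx)
  refine ⟨⟨_, _, by rw [← Pic.map_mk, hmk], F, pullSec f c' (s.restrict le_top)⟩, q, hq' hne, hq,
    fun y => ?_, fun r hr => ?_⟩
  · obtain ⟨r, hr⟩ := (M.coordFun K).surjective (Sec.pair y (pullSec f c' (s.restrict le_top)))
    refine ⟨r, ?_, hr.symm⟩
    have hle : Ideal.span (Set.range fun H : Sec c'.inv M.C0 =>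
        appLEHom f le_rfl (Sec.pair H (s.restrict (le_top : M.C0 ≤ ⊤)))) ≤
        (RingHom.ker (M.expansion.evalPt K ψ)).comap (M.coordFun K).symm.toRingHom := by
      refine Ideal.span_le.2 ?_
      rintro _ ⟨H, rfl⟩
      rw [SetLike.mem_coe, Ideal.mem_comap, RingHom.mem_ker]
      dsimp only
      rw [← M.coordFun_coordInc]
      change M.expansion.evalPt K ψ ((M.coordFun K).symm (M.coordFun K _)) = 0
      rw [RingEquiv.symm_apply_apply, Expansion.evalPt_coordInc, (hψ _).2, map_zero]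
      exact not_isUnit_germ_pair x hs hx H
    have := hle (Sec.pair_pullSec_mem_span f M.affine0 _ y)
    rw [Ideal.mem_comap, RingHom.mem_ker, ← hr] at this
    simpa using this
  · have hgen := Expansion.mem_span_of_evalPt hr
    clear hr
    induction hgen using Submodule.span_induction with
    | mem r hr =>
      obtain ⟨r₀, hr₀, rfl⟩ := hr
      obtain ⟨r₁, rfl⟩ := (toFunRing c M.C0).surjective r₀
      obtain ⟨y, hy⟩ := exists_pair_eq_of_not_isUnit x hs r₁ fun hx' => (hψ r₁).1 hr₀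
      exact ⟨Sec.pullInv f y, by rw [M.coordFun_coordInc, ← hy, Sec.pair_pullSec]⟩
    | zero => exact ⟨0, by rw [map_zero]; exact Sec.pair_eq fun i V hW hi => by simp⟩
    | add r r' _ _ h h' =>
      obtain ⟨y, hy⟩ := h
      obtain ⟨y', hy'⟩ := h'
      exact ⟨y + y', by rw [Sec.pair_add_left, hy, hy', map_add]⟩
    | smul a r _ h =>
      obtain ⟨y, hy⟩ := h
      exact ⟨M.coordFun K a • y, by rw [Sec.pair_smul_left, hy, smul_eq_mul, map_mul]⟩

/-- The frame of the marked point. -/
theorem exists_pointFrame_marked (M : CurveModel c ε) (K : Type u) [Field K] [Algebra k K] :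
    ∃ P : PointFrame M K ε, ∃ p : PowerSeries K, IsUnit p ∧
      P.F.toLaurent P.s = HahnSeries.ofPowerSeries ℤ K (PowerSeries.X * p) ∧
      ∃ y, Sec.pair y P.s = 1 := by
  obtain ⟨c', s, hs, hmk⟩ := exists_sec_pointClass c ε
  set f := pullback.fst c (specAlg k K)
  obtain ⟨F⟩ := exists_frame_field M (c'.pull f)
  obtain ⟨q, hq, hq', -⟩ := toLaurent_pullSec ε hs F
  obtain ⟨p, hp, rfl⟩ := hq' rfl
  refine ⟨⟨_, _, by rw [← Pic.map_mk, hmk], F, pullSec f c' (s.restrict le_top)⟩, p, hp, hq, ?_⟩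
  obtain ⟨y, hy⟩ := exists_pair_eq_of_not_isUnit ε hs (1 : Γ(C, M.C0))
    fun h => absurd h M.markedPoint_notMem_C0
  exact ⟨Sec.pullInv f y, by rw [Sec.pair_pullSec, hy, map_one]⟩

end Fermat.Agent.Jac
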