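import Fermat.Agent.Jac.AJ.CellsPoint

/-!
Lattices of twists by rational points.
-/

set_option autoImplicit false
set_option linter.unusedVariables false
set_option linter.unusedSectionVars false

noncomputable section

open CategoryTheory CategoryTheory.Limits AlgebraicGeometry TopologicalSpace Opposite NeronModelInfra
open AlgebraicGeometry.RelPicard
open scoped TensorProduct

attribute [local instance 2000] HahnSeries.instAlgebra

namespace Fermat.Agent.Jac

universe u

namespace Frame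

variable {k : Type u} [Field k] {C : Scheme.{u}} {c : C ⟶ Spec (CommRingCat.of k)}
  {ε : SchemeHomOver (𝟙 (Spec (CommRingCat.of k))) c} {M : CurveModel c ε}
  {A : Type u} [CommRing A] [Algebra k A] {ι κ : Type u} {z : Cocycle (curveOver c A) ι}

theorem toLaurent_smul_coordFun (F : Frame M z) (r : M.expansion.CoordRing A)
    (x : Sec z (M.D0 A)) :
    F.toLaurent (M.coordFun A r • x) = M.expansion.expA A r * F.toLaurent x := by
  rw [toLaurent_smul, CurveModel.exp0A_coordFun]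

theorem expA_mul_mem_image (F : Frame M z) (r : M.expansion.CoordRing A) {v : LaurentSeries A}
    (hv : v ∈ F.image) : M.expansion.expA A r * v ∈ F.image := by
  obtain ⟨x, rfl⟩ := hv
  exact ⟨M.coordFun A r • x, F.toLaurent_smul_coordFun r x⟩

/-- The image of a product frame is spanned by products. -/
theorem image_mul {z' : Cocycle (curveOver c A) κ} (F : Frame M z) (F' : Frame M z') :
    (F.mul F').image = Submodule.span A
      {v | ∃ a ∈ F.image, ∃ b ∈ F'.image, v = a * b} := by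
  refine le_antisymm ?_ (Submodule.span_le.2 ?_)
  · obtain ⟨n, G, H, h⟩ := exists_dualBasis₀ z M
    obtain ⟨n', G', H', h'⟩ := exists_dualBasis₀ z' M
    rintro _ ⟨x, rfl⟩
    have hsum : ∑ p : Fin n × Fin n',
        Sec.pair (Sec.mulInv (H p.1) (H' p.2)) ((G p.1).mulSec (G' p.2)) = 1 := by
      simp only [Sec.pair_mulInv]
      rw [Fintype.sum_prod_type]
      dsimp only
      rw [← Fintype.sum_mul_sum, h, h', one_mul]
    have key : x = ∑ p : Fin n × Fin n',
        Sec.pair (Sec.mulInv (H p.1) (H' p.2)) x • (G p.1).mulSec (G' p.2) := by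
      simp only [← Sec.pair_smul_comm (Sec.mulInv (H _) (H' _)) ((G _).mulSec (G' _)) x,
        ← Finset.sum_smul, hsum, one_smul]
    rw [key, toLaurent_sum]
    refine sum_mem fun p _ => ?_
    obtain ⟨r, hr⟩ := (M.coordFun A).surjective (Sec.pair (Sec.mulInv (H p.1) (H' p.2)) x)
    rw [← hr, toLaurent_smul_coordFun, toLaurent_mul, ← mul_assoc]
    exact Submodule.subset_span ⟨_, F.expA_mul_mem_image r ⟨_, rfl⟩, _, ⟨_, rfl⟩, rfl⟩
  · rintro _ ⟨_, ⟨a, rfl⟩, _, ⟨b, rfl⟩, rfl⟩
    exact ⟨a.mulSec b, toLaurent_mul F F' a b⟩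

/-- Rescaling a frame by a unit series belonging to its image. -/
theorem exists_rescale (F : Frame M z) {p q : PowerSeries A} (hpq : p * q = 1)
    (hp : HahnSeries.ofPowerSeries ℤ A p ∈ F.image) :
    ∃ F' : Frame M z, ∀ v, v ∈ F'.image ↔ HahnSeries.ofPowerSeries ℤ A p * v ∈ F.image := by
  obtain ⟨w, hw⟩ := hp
  set P := Sec.pair (F.η.restrict (M.D01_le1 A)) (w.restrict (M.D01_le0 A))
  have hP : M.exp01A A P = HahnSeries.ofPowerSeries ℤ A (p * M.exp1A A F.g) := by
    rw [map_mul, ← CurveModel.exp01A_res1, ← F.den_eq, ← hw, Frame.toLaurent,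
      Units.inv_mul_cancel_right]
  obtain ⟨g', hg'⟩ := M.exists_extend P (by rw [hP]; exact poleLE_ofPowerSeries _)
  have hexp : M.exp1A A g' = p * M.exp1A A F.g :=
    HahnSeries.ofPowerSeries_injective (Γ := ℤ) (by rw [← hP, ← CurveModel.exp01A_res1, hg'])
  have hu : IsUnit (M.exp1A A g') := by
    rw [hexp]; exact (IsUnit.of_mul_eq_one q hpq).mul F.isUnit_g
  let F' : Frame M z := { F with g := g', isUnit_g := hu }
  have hpq' : HahnSeries.ofPowerSeries ℤ A p * HahnSeries.ofPowerSeries ℤ A q = 1 := by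
    rw [← map_mul, hpq, map_one]
  have hd : (F'.den : LaurentSeries A) = HahnSeries.ofPowerSeries ℤ A p * F.den := by
    rw [Frame.den_eq, Frame.den_eq, CurveModel.exp01A_res1, CurveModel.exp01A_res1, hexp, map_mul]
  have hd' : (↑F'.den⁻¹ : LaurentSeries A) = HahnSeries.ofPowerSeries ℤ A q * ↑F.den⁻¹ := by
    refine Units.inv_eq_of_mul_eq_one_right ?_
    rw [hd, mul_mul_mul_comm, hpq', Units.mul_inv, one_mul]
  have key : ∀ y, F'.toLaurent y = HahnSeries.ofPowerSeries ℤ A q * F.toLaurent y := fun y => by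
    rw [Frame.toLaurent, Frame.toLaurent, hd']
    ring
  refine ⟨F', fun v => ⟨fun ⟨t, ht⟩ => ⟨t, ?_⟩, fun ⟨t, ht⟩ => ⟨t, ?_⟩⟩⟩
  · rw [← ht, key, ← mul_assoc, hpq', one_mul]
  · rw [key, ht, ← mul_assoc, mul_comm (HahnSeries.ofPowerSeries ℤ A q), hpq', one_mul]

end Frame

variable {k : Type u} [Field k] [IsAlgClosed k] {C : Scheme.{u}}
  {c : C ⟶ Spec (CommRingCat.of k)} [IsIntegral C] [IsProper c] [SmoothOfRelativeDimension 1 c]
  {ε : SchemeHomOver (𝟙 (Spec (CommRingCat.of k))) c} {M : CurveModel c ε}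
  {K : Type u} [Field K] [Algebra k K] {ι : Type u} {z : Cocycle (curveOver c K) ι}

theorem PointFrame.mk_mul {x : SchemeHomOver (𝟙 (Spec (CommRingCat.of k))) c} (P : PointFrame M K x) :
    Pic.mk (z.mul P.z) = Pic.mk z * Pic.map (pullback.fst c (specAlg k K)) (pointClass c x) := by
  rw [← Pic.mk_mul, P.mk_eq]

/-- Twisting up by the marked point. -/
theorem exists_twist_marked (F : Frame M z) :
    ∃ (κ : Type u) (z' : Cocycle (curveOver c K) κ) (F' : Frame M z') (p : PowerSeries K),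
      IsUnit p ∧ Pic.mk z' = Pic.mk z * Pic.map (pullback.fst c (specAlg k K)) (pointClass c ε) ∧
        F'.image = scaleBy (HahnSeries.ofPowerSeries ℤ K (PowerSeries.X * p)) F.image := by
  obtain ⟨P, p, hp, hv, y, hy⟩ := exists_pointFrame_marked M K
  refine ⟨_, _, F.mul P.F, p, hp, P.mk_mul, ?_⟩
  rw [Frame.image_mul]
  refine le_antisymm (Submodule.span_le.2 ?_) fun v hv' => ?_
  · rintro _ ⟨a, ha, _, ⟨t, rfl⟩, rfl⟩
    have ht : t = Sec.pair y t • P.s := by
      rw [← Sec.pair_smul_comm y P.s t, hy, one_smul]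
    obtain ⟨r, hr⟩ := (M.coordFun K).surjective (Sec.pair y t)
    rw [ht, ← hr, Frame.toLaurent_smul_coordFun, hv]
    exact mem_scaleBy.2 ⟨_, F.expA_mul_mem_image r ha, by ring⟩
  · obtain ⟨w, hw, rfl⟩ := mem_scaleBy.1 hv'
    exact Submodule.subset_span ⟨w, hw, _, ⟨P.s, rfl⟩, by rw [hv, mul_comm]⟩

/-- Twisting down by a point away from the marked one. -/
theorem exists_twist_down (F : Frame M z) (ψ : FunRing c M.C0 →ₐ[k] k) :
    ∃ (x : SchemeHomOver (𝟙 (Spec (CommRingCat.of k))) c) (κ : Type u)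
      (z' : Cocycle (curveOver c K) κ) (F' : Frame M z') (p q : PowerSeries K), p * q = 1 ∧
      Pic.mk z = Pic.mk z' * Pic.map (pullback.fst c (specAlg k K)) (pointClass c x) ∧
        F'.image = scaleBy (HahnSeries.ofPowerSeries ℤ K q) (F.lattice.vanish ψ) := by
  obtain ⟨x, hx, hψ⟩ := exists_point_of_algHom M ψ
  obtain ⟨P, p, hp, hv, hle, hge⟩ := exists_pointFrame M K x ψ hx hψ
  obtain ⟨q, hq⟩ := hp.exists_right_inv
  have hqv : HahnSeries.ofPowerSeries ℤ K q * P.F.toLaurent P.s = 1 := by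
    rw [hv, ← map_mul, mul_comm, hq, map_one]
  have hdual : ∀ y r, Sec.pair y P.s = M.coordFun K r → P.F.inv.toLaurent y =
      HahnSeries.ofPowerSeries ℤ K q * M.expansion.expA K r := fun y r h => by
    rw [← CurveModel.exp0A_coordFun, ← h, ← Frame.toDual_mul_toLaurent, Frame.toLaurent_inv,
      mul_left_comm, hqv, mul_one]
  refine ⟨x, _, _, F.mul P.F.inv, p, q, hq, ?_, ?_⟩
  · rw [← Pic.mk_mul, ← Pic.mk_inv, P.mk_eq, inv_mul_cancel_right]
  rw [Frame.image_mul, Expansion.Lattice.vanish_eq_span, Frame.lattice_W, scaleBy, Submodule.map_span]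
  refine congrArg _ (Set.ext fun v => ⟨?_, ?_⟩)
  · rintro ⟨a, ha, _, ⟨y, rfl⟩, rfl⟩
    obtain ⟨r, hr, hy⟩ := hle y
    exact ⟨_, ⟨r, a, hr, ha, rfl⟩, by
      rw [hdual y r hy, LinearMap.mulLeft_apply]; ring⟩
  · rintro ⟨_, ⟨r, a, hr, ha, rfl⟩, rfl⟩
    obtain ⟨y, hy⟩ := hge r hr
    exact ⟨a, ha, _, ⟨y, rfl⟩, by rw [hdual y r hy, LinearMap.mulLeft_apply]; ring⟩

end Fermat.Agent.Jac
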