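import Fermat.Agent.Jac.AJ.Product
import Fermat.Agent.Jac.AJ.PointClass

/-!
The diagonal of a smooth proper curve is locally principal; its class and restrictions.
-/

set_option autoImplicit false
set_option linter.unusedVariables false
set_option linter.unusedSectionVars false

noncomputable section

open CategoryTheory CategoryTheory.Limits AlgebraicGeometry TopologicalSpace Opposite NeronModelInfra
open scoped TensorProduct

namespace Fermat.Agent.Jac

universe u

/-- The kernel of multiplication is locally generated by one element when differentials are. -/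
theorem exists_diag_generator {k R : Type u} [CommRing k] [CommRing R] [Algebra k R]
    [Algebra.FiniteType k R] (hΩ : Curve.LocallyCyclic R Ω[R⁄k]) (q : Ideal (R ⊗[k] R))
    [hq : q.IsPrime] (hle : KaehlerDifferential.ideal k R ≤ q) :
    ∃ g ∉ q, ∃ π ∈ KaehlerDifferential.ideal k R,
      ∀ a ∈ KaehlerDifferential.ideal k R, g * a ∈ Ideal.span {π} := by
  let μ : R ⊗[k] R →ₐ[k] R := Algebra.TensorProduct.lmul' k
  have hμ : Function.Surjective μ := fun r => ⟨r ⊗ₜ 1, by simp [μ]⟩
  have hprime : (q.map μ).IsPrime := Ideal.map_isPrime_of_surjective hμ hle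
  obtain ⟨m, hm, hqm⟩ := Ideal.exists_le_maximal _ hprime.ne_top
  obtain ⟨f, hf, ω, hω⟩ := hΩ m hm
  obtain ⟨⟨π, hπ⟩, hπω⟩ := KaehlerDifferential.fromIdeal_surjective k R ω
  let I := KaehlerDifferential.ideal k R
  let F : R ⊗[k] R := f ⊗ₜ 1
  have hF : F ∉ q := fun h => hf (hqm (by
    have := Ideal.mem_map_of_mem μ h
    simpa [μ, F] using this))
  have hstep : ∀ x : I, ∃ b : R ⊗[k] R, F • x - b • (⟨π, hπ⟩ : I) ∈ I • (⊤ : Submodule (R ⊗[k] R) I) := by
    intro x
    obtain ⟨b, hb⟩ := Submodule.mem_span_singleton.1 (hω (KaehlerDifferential.fromIdeal k R x))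
    refine ⟨algebraMap R (R ⊗[k] R) b, ?_⟩
    rw [← Submodule.Quotient.mk_eq_zero]
    change KaehlerDifferential.fromIdeal k R (F • x - algebraMap R (R ⊗[k] R) b • ⟨π, hπ⟩) = 0
    rw [map_sub, map_smul, map_smul, hπω, show F = algebraMap R (R ⊗[k] R) f from rfl,
      algebraMap_smul, algebraMap_smul, hb, sub_self]
  let N : Submodule (R ⊗[k] R) I := Submodule.span _ {⟨π, hπ⟩}
  have : Module.Finite (R ⊗[k] R) I := Module.Finite.iff_fg.2 (KaehlerDifferential.ideal_fg k R)
  have hrange : LinearMap.range (algebraMap (R ⊗[k] R) (Module.End (R ⊗[k] R) (I ⧸ N)) F) ≤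
      I • (⊤ : Submodule (R ⊗[k] R) (I ⧸ N)) := by
    rintro _ ⟨z, rfl⟩
    obtain ⟨x, rfl⟩ := N.mkQ_surjective z
    obtain ⟨b, hb⟩ := hstep x
    have h1 : N.mkQ (F • x - b • ⟨π, hπ⟩) ∈ (I • (⊤ : Submodule (R ⊗[k] R) I)).map N.mkQ :=
      Submodule.mem_map_of_mem hb
    rw [Submodule.map_smul'', Submodule.map_top, Submodule.range_mkQ] at h1
    rw [map_sub, map_smul, map_smul] at h1
    have h2 : N.mkQ (⟨π, hπ⟩ : I) = 0 :=
      (Submodule.Quotient.mk_eq_zero _).2 (Submodule.mem_span_singleton_self _)
    rw [h2, smul_zero, sub_zero] at h1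
    exact h1
  obtain ⟨P, hP, -, hcoeff, hP0⟩ :=
    LinearMap.exists_monic_and_natDegree_eq_and_coeff_mem_pow_and_aeval_eq_zero _ _ I hrange
  rw [Polynomial.aeval_algebraMap_apply, Polynomial.coe_aeval_eq_eval] at hP0
  refine ⟨P.eval F, fun h => ?_, π, hπ, fun a ha => ?_⟩
  · refine hF (hq.mem_of_pow_mem P.natDegree ?_)
    rw [Polynomial.eval_eq_sum_range, Finset.sum_range_succ, hP.coeff_natDegree, one_mul] at h
    refine (q.add_mem_iff_right (q.sum_mem fun i hi => q.mul_mem_right _ ?_)).1 h
    exact hle (Ideal.pow_le_self (by have := Finset.mem_range.1 hi; omega) (hcoeff i))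
  · have h1 := LinearMap.congr_fun hP0 (N.mkQ ⟨a, ha⟩)
    rw [Module.algebraMap_end_apply, LinearMap.zero_apply, ← map_smul, Submodule.mkQ_apply,
      Submodule.Quotient.mk_eq_zero] at h1
    obtain ⟨b, hb⟩ := Submodule.mem_span_singleton.1 h1
    exact Ideal.mem_span_singleton.2 ⟨b, by
      have := congrArg Subtype.val hb
      simp only [Submodule.coe_smul, smul_eq_mul] at this
      rw [← this, mul_comm]⟩

variable {k : Type u} [Field k] [IsAlgClosed k] {C : Scheme.{u}}
  (c : C ⟶ Spec (CommRingCat.of k)) [IsIntegral C] [IsProper c] [SmoothOfRelativeDimension 1 c]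

/-- The diagonal. -/
abbrev diagMap : C ⟶ pullback c c := pullback.lift (𝟙 C) (𝟙 C) rfl

@[reassoc]
theorem diagMap_fst : diagMap c ≫ pullback.fst c c = 𝟙 C := pullback.lift_fst ..

@[reassoc]
theorem diagMap_snd : diagMap c ≫ pullback.snd c c = 𝟙 C := pullback.lift_snd ..

instance isClosedImmersion_diagMap : IsClosedImmersion (diagMap c) :=
  inferInstanceAs (IsClosedImmersion (pullback.diagonal c))

/-- The section `p ↦ (p, x)`. -/
def pointSection (x : SchemeHomOver (𝟙 (Spec (CommRingCat.of k))) c) : C ⟶ pullback c c :=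
  pullback.lift (𝟙 C) (c ≫ x.1) (by rw [Category.assoc, x.2, Category.id_comp, Category.comp_id])

@[reassoc (attr := simp)]
theorem pointSection_fst (x : SchemeHomOver (𝟙 (Spec (CommRingCat.of k))) c) :
    pointSection c x ≫ pullback.fst c c = 𝟙 C := pullback.lift_fst ..

@[reassoc (attr := simp)]
theorem pointSection_snd (x : SchemeHomOver (𝟙 (Spec (CommRingCat.of k))) c) :
    pointSection c x ≫ pullback.snd c c = c ≫ x.1 := pullback.lift_snd ..

theorem point_pointSection (x : SchemeHomOver (𝟙 (Spec (CommRingCat.of k))) c) :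
    x.1 ≫ pointSection c x = x.1 ≫ diagMap c := by
  ext1
  · simp [diagMap_fst]
  · simp only [Category.assoc, pointSection_snd, diagMap_snd, Category.comp_id]
    rw [← Category.assoc, x.2, Category.id_comp]

theorem fst_pointSection_apply (x : SchemeHomOver (𝟙 (Spec (CommRingCat.of k))) c) (p : C) :
    pullback.fst c c (pointSection c x p) = p := by
  rw [← Scheme.Hom.comp_apply, pointSection_fst]
  rfl

theorem snd_pointSection_apply (x : SchemeHomOver (𝟙 (Spec (CommRingCat.of k))) c) (p : C) :
    pullback.snd c c (pointSection c x p) = Curve.markedPoint c x := by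
  rw [← Scheme.Hom.comp_apply, pointSection_snd, Scheme.Hom.comp_apply]
  exact apply_eq_markedPoint c x _

theorem fst_diagonal_apply (p : C) : pullback.fst c c (diagMap c p) = p := by
  rw [← Scheme.Hom.comp_apply, diagMap_fst]
  rfl

theorem snd_diagonal_apply (p : C) : pullback.snd c c (diagMap c p) = p := by
  rw [← Scheme.Hom.comp_apply, diagMap_snd]
  rfl

theorem eq_markedPoint_of_pointSection_mem (x : SchemeHomOver (𝟙 (Spec (CommRingCat.of k))) c)
    {p : C} (h : pointSection c x p ∈ Set.range (diagMap c)) :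
    p = Curve.markedPoint c x := by
  obtain ⟨q, hq⟩ := h
  have h1 := congrArg (pullback.fst c c) hq
  have h2 := congrArg (pullback.snd c c) hq
  rw [fst_diagonal_apply, fst_pointSection_apply] at h1
  rw [snd_diagonal_apply, snd_pointSection_apply] at h2
  exact h1 ▸ h2

theorem isClosed_range_diagonal : IsClosed (Set.range (diagMap c)) :=
  (diagMap c).isClosedEmbedding.isClosed_range

theorem exists_point : Nonempty (SchemeHomOver (𝟙 (Spec (CommRingCat.of k))) c) := by
  have : JacobsonSpace C := LocallyOfFiniteType.jacobsonSpace c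
  obtain ⟨y, -, hy⟩ := nonempty_inter_closedPoints (Z := (Set.univ : Set C))
    Set.univ_nonempty isClosed_univ.isLocallyClosed
  exact ⟨⟨((pointEquivClosedPoint c).symm ⟨y, hy⟩).1, ((pointEquivClosedPoint c).symm ⟨y, hy⟩).2⟩⟩

theorem genericPoint_notMem_range_diagonal [IsIntegral (pullback c c)] :
    genericPoint ↥(pullback c c) ∉ Set.range (diagMap c) := by
  intro h
  obtain ⟨x⟩ := exists_point c
  have hall := ((genericPoint_spec ↥(pullback c c)).mem_closed_set_iff (isClosed_range_diagonal c)).1 h
  exact Curve.genericPoint_ne_markedPoint c x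
    (eq_markedPoint_of_pointSection_mem c x (hall (Set.mem_univ _)))

theorem diagonal_le_boxOpen (U : C.Opens) : U ≤ diagMap c ⁻¹ᵁ boxOpen c c U U :=
  fun p hp => ⟨show pullback.fst c c (diagMap c p) ∈ U by rwa [fst_diagonal_apply],
    show pullback.snd c c (diagMap c p) ∈ U by rwa [snd_diagonal_apply]⟩

theorem appLEHom_diagonal_boxHom (U : C.Opens) (z : FunRing c U ⊗[k] FunRing c U) :
    appLEHom (diagMap c) (diagonal_le_boxOpen c U) (boxHom c c U U z) =
      (toFunRing c U).symm (Algebra.TensorProduct.lmul' k z) := by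
  induction z using TensorProduct.induction_on with
  | zero => simp
  | add a b ha hb => simp only [map_add, ha, hb]
  | tmul a b =>
    rw [boxHom_tmul, map_mul, Algebra.TensorProduct.lmul'_apply_tmul, map_mul]
    congr 1
    · change appLEHom _ _ (appLEHom _ _ _) = _
      rw [appLEHom_appLEHom, appLEHom_congr (diagMap_fst c), appLEHom_id, res_self]
      rfl
    · change appLEHom _ _ (appLEHom _ _ _) = _
      rw [appLEHom_appLEHom, appLEHom_congr (diagMap_snd c), appLEHom_id, res_self]
      rfl

section Box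

variable {U : C.Opens} [Nonempty U] (hU : IsAffineOpen U)


theorem surjective_appLEHom_diagonal :
    Function.Surjective (appLEHom (diagMap c) (diagonal_le_boxOpen c U)) := fun r => by
  refine ⟨boxHom c c U U (toFunRing c U r ⊗ₜ 1), ?_⟩
  rw [appLEHom_diagonal_boxHom, Algebra.TensorProduct.lmul'_apply_tmul, mul_one,
    RingEquiv.symm_apply_apply]

include hU in
/-- Off the diagonal some function vanishing on the diagonal is invertible. -/
theorem exists_isUnit_germAt_of_notMem {y : ↥(pullback c c)} (hy : y ∈ boxOpen c c U U)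
    (hn : y ∉ Set.range (diagMap c)) :
    ∃ a, appLEHom (diagMap c) (diagonal_le_boxOpen c U) a = 0 ∧ IsUnit (germAt y hy a) := by
  have hB := isAffineOpen_boxOpen c c hU hU
  set q := hB.primeIdealOf ⟨y, hy⟩
  letI := (pullback c c).presheaf.algebra_section_stalk (⟨y, hy⟩ : boxOpen c c U U)
  have := hB.isLocalization_stalk ⟨y, hy⟩
  by_contra hcon
  simp only [not_exists, not_and] at hcon
  have hker : RingHom.ker (appLEHom (diagMap c) (diagonal_le_boxOpen c U)) ≤ q.asIdeal := fun a ha => by
    by_contra haq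
    exact hcon a ha ((IsLocalization.AtPrime.isUnit_to_map_iff ((pullback c c).presheaf.stalk y) q.asIdeal a).2 haq)
  have hq' := Ideal.map_isPrime_of_surjective (surjective_appLEHom_diagonal c) hker
  have hcomap : (q.asIdeal.map (appLEHom (diagMap c) (diagonal_le_boxOpen c U))).comap
      (appLEHom (diagMap c) (diagonal_le_boxOpen c U)) = q.asIdeal := by
    rw [Ideal.comap_map_of_surjective _ (surjective_appLEHom_diagonal c)]
    exact sup_eq_left.2 hker
  let q' : PrimeSpectrum Γ(C, U) := ⟨_, hq'⟩
  refine hn ⟨hU.fromSpec q', ?_⟩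
  rw [← Scheme.Hom.comp_apply, ← IsAffineOpen.SpecMap_appLE_fromSpec (diagMap c) hB hU
    (diagonal_le_boxOpen c U), Scheme.Hom.comp_apply]
  refine (congrArg hB.fromSpec ?_).trans (hB.fromSpec_primeIdealOf ⟨y, hy⟩)
  exact PrimeSpectrum.ext hcomap

include hU in
theorem exists_isEquation_diagonal_box {p : C} (hp : p ∈ U) :
    ∃ V : ((pullback c c)).Opens, (diagMap c) p ∈ V ∧ ∃ f, IsEquation (diagMap c) V f := by
  have := isIntegral_prod c c
  have hB := isAffineOpen_boxOpen c c hU hU
  have hpB : (diagMap c) p ∈ boxOpen c c U U := diagonal_le_boxOpen c U hp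
  set δU := appLEHom (diagMap c) (diagonal_le_boxOpen c U)
  have hθ := boxHom_bijective c c hU hU
  have hI : ∀ a, a ∈ KaehlerDifferential.ideal k (FunRing c U) ↔ δU (boxHom c c U U a) = 0 :=
    fun a => by
      rw [appLEHom_diagonal_boxHom, RingHom.mem_ker, map_eq_zero_iff _ (toFunRing c U).symm.injective]
  letI := ((pullback c c)).presheaf.algebra_section_stalk (⟨(diagMap c) p, hpB⟩ : boxOpen c c U U)
  have := hB.isLocalization_stalk ⟨(diagMap c) p, hpB⟩
  set q₀ := (hB.primeIdealOf ⟨(diagMap c) p, hpB⟩).asIdeal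
  have hle : KaehlerDifferential.ideal k (FunRing c U) ≤ q₀.comap (boxHom c c U U) := by
    intro a ha
    rw [Ideal.mem_comap]
    by_contra hna
    have h1 : IsUnit (germAt ((diagMap c) p) hpB (boxHom c c U U a)) :=
      (IsLocalization.AtPrime.isUnit_to_map_iff (((pullback c c)).presheaf.stalk ((diagMap c) p)) q₀ _).2 hna
    have h2 := h1.map (((diagMap c)).stalkMap p).hom
    rw [stalkMap_germAt (diagMap c) (diagonal_le_boxOpen c U) p hp, (hI a).1 ha, map_zero] at h2
    exact not_isUnit_zero h2
  have hft := finiteType_funRing c hU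
  have hΩ : Curve.LocallyCyclic (FunRing c U) Ω[FunRing c U⁄k] := (Curve.kaehler_affine c hU).1
  obtain ⟨g, hg, π, hπ, hgπ⟩ := exists_diag_generator hΩ (q₀.comap (boxHom c c U U)) hle
  set g' := boxHom c c U U g
  set π' := boxHom c c U U π
  have hdvd : ∀ b, δU b = 0 → π' ∣ g' * b := fun b hb => by
    obtain ⟨a, rfl⟩ := hθ.2 b
    rw [← map_mul]
    exact map_dvd _ (Ideal.mem_span_singleton.1 (hgπ a ((hI a).2 hb)))
  refine ⟨((pullback c c)).basicOpen g', (((pullback c c)).mem_basicOpen g' ((diagMap c) p) hpB).2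
    ((IsLocalization.AtPrime.isUnit_to_map_iff (((pullback c c)).presheaf.stalk ((diagMap c) p)) q₀ _).2 hg),
    res (((pullback c c)).basicOpen_le g') π', ?_, ?_⟩
  · intro y hy hn
    have hyB : y ∈ boxOpen c c U U := ((pullback c c)).basicOpen_le g' hy
    obtain ⟨a, ha, hau⟩ := exists_isUnit_germAt_of_notMem c hU hyB hn
    rw [germAt_res]
    refine isUnit_of_dvd_unit (map_dvd (germAt y hyB) (hdvd a ha)) ?_
    rw [map_mul]
    exact ((((pullback c c)).mem_basicOpen g' y hyB).1 hy).mul hau
  · intro p' hp'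
    have hB' : (diagMap c) p' ∈ boxOpen c c U U := ((pullback c c)).basicOpen_le g' hp'
    have hp'U : p' ∈ U := by
      have h : pullback.fst c c ((diagMap c) p') ∈ U := hB'.1
      rwa [fst_diagonal_apply] at h
    rw [germAt_res]
    refine le_antisymm ((Ideal.span_singleton_le_iff_mem _).2 ?_) fun z hz => ?_
    · rw [RingHom.mem_ker, stalkMap_germAt (diagMap c) (diagonal_le_boxOpen c U) p' hp'U, (hI π).1 hπ,
        map_zero]
    letI := ((pullback c c)).presheaf.algebra_section_stalk (⟨(diagMap c) p', hB'⟩ : boxOpen c c U U)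
    have := hB.isLocalization_stalk ⟨(diagMap c) p', hB'⟩
    obtain ⟨⟨a, s⟩, has⟩ := IsLocalization.surj
      (hB.primeIdealOf ⟨(diagMap c) p', hB'⟩).asIdeal.primeCompl z
    have hs : IsUnit (germAt _ hB' (s : Γ((pullback c c), boxOpen c c U U))) :=
      IsLocalization.map_units (((pullback c c)).presheaf.stalk _) s
    have has' : z * germAt _ hB' (s : Γ((pullback c c), boxOpen c c U U)) = germAt _ hB' a := has
    have ha : δU a = 0 := by
      refine germ_injective_of_isIntegral (X := C) p' hp'U (Eq.trans ?_ (map_zero _).symm)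
      change germAt p' hp'U (δU a) = 0
      rw [← stalkMap_germAt, ← has', map_mul, RingHom.mem_ker.1 hz, zero_mul]
    rw [Ideal.mem_span_singleton]
    refine hs.dvd_mul_right.1 ?_
    rw [has']
    refine ((((pullback c c)).mem_basicOpen g' _ hB').1 hp').dvd_mul_left.1 ?_
    exact (map_dvd (germAt _ hB') (hdvd a ha)).trans (map_mul (germAt _ hB') g' a).dvd

end Box

theorem exists_isEquation_diagonal (y : ↥(pullback c c)) :
    ∃ V : (pullback c c).Opens, y ∈ V ∧ ∃ f, IsEquation (diagMap c) V f := by
  by_cases hy : y ∈ Set.range (diagMap c)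
  · obtain ⟨p, rfl⟩ := hy
    obtain ⟨_, ⟨U, hU, rfl⟩, hp, -⟩ :=
      C.isBasis_affineOpens.exists_subset_of_mem_open (Set.mem_univ p) isOpen_univ
    have : Nonempty U := ⟨⟨p, hp⟩⟩
    exact exists_isEquation_diagonal_box c hU hp
  · exact ⟨⟨_, (isClosed_range_diagonal c).isOpen_compl⟩, hy, 1, IsEquation.one fun z hz => hz⟩

theorem IsEquation.dvd_germAt {X Y Z : Scheme.{u}} {δ : Z ⟶ Y} {U V : Y.Opens} {W : Z.Opens}
    {a : Γ(Y, U)} (h : IsEquation δ U a) {b : Γ(Y, V)} (hW : W ≤ δ ⁻¹ᵁ V) {y : Y} {p : Z}
    (e : δ p = y) (hp : p ∈ W) (hb : appLEHom δ hW b = 0) (hy : y ∈ U) (hy' : y ∈ V) :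
    germAt y hy a ∣ germAt y hy' b := by
  subst e
  rw [← Ideal.mem_span_singleton, h.span p hy, RingHom.mem_ker,
    stalkMap_germAt δ hW p hp, hb, map_zero]

/-- An equation of the diagonal restricts to an equation of the point. -/
theorem isEquation_pointSection (x : SchemeHomOver (𝟙 (Spec (CommRingCat.of k))) c)
    {U : (pullback c c).Opens} {a : Γ(pullback c c, U)}
    (h : IsEquation (diagMap c) U a) :
    IsEquation x.1 (pointSection c x ⁻¹ᵁ U) (appLEHom (pointSection c x) le_rfl a) := by
  set σ := pointSection c x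
  refine ⟨fun p hp hn => ?_, fun q hq => ?_⟩
  · rw [← stalkMap_germAt σ le_rfl p hp]
    refine (h.unit _ hp fun hr => hn ⟨IsLocalRing.closedPoint k, ?_⟩).map _
    exact (apply_eq_markedPoint c x _).trans (eq_markedPoint_of_pointSection_mem c x hr).symm
  · set p := x.1 q
    have e : diagMap c p = σ p := by
      rw [← Scheme.Hom.comp_apply, ← point_pointSection]
      rfl
    rw [ker_stalkMap_point, ← stalkMap_germAt σ le_rfl p hq]
    refine le_antisymm ((Ideal.span_singleton_le_iff_mem _).2 ?_) fun z hz => ?_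
    · rw [IsLocalRing.mem_maximalIdeal, mem_nonunits_iff, isUnit_map_iff]
      intro hu
      have hker : ∀ (y : ↥(pullback c c)) (hy : y ∈ U), diagMap c p = y →
          ¬ IsUnit (germAt y hy a) := by
        rintro y hy rfl hu
        have h1 := Ideal.mem_span_singleton_self (germAt _ hy a)
        rw [h.span p hy, RingHom.mem_ker] at h1
        have := hu.map ((diagMap c).stalkMap p).hom
        rw [h1] at this
        exact not_isUnit_zero this
      exact hker (σ p) hq e hu
    obtain ⟨W, hpW, b, rfl⟩ := exists_germAt_eq p z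
    -- the function `b(first) - b(second)`
    let B := boxOpen c c W W
    let d : Γ(pullback c c, B) :=
      appLEHom (pullback.fst c c) inf_le_left b - appLEHom (pullback.snd c c) inf_le_right b
    have hd : appLEHom (diagMap c) (diagonal_le_boxOpen c W) d = 0 := by
      rw [map_sub, appLEHom_appLEHom, appLEHom_appLEHom,
        appLEHom_congr (diagMap_fst c), appLEHom_congr (diagMap_snd c), sub_self]
    have hσB : σ p ∈ B := e ▸ diagonal_le_boxOpen c W hpW
    have hdiv := (h.dvd_germAt (X := C) (diagonal_le_boxOpen c W) e hpW hd hq hσB)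
    rw [Ideal.mem_span_singleton]
    refine (map_dvd (σ.stalkMap p).hom hdiv).trans (dvd_of_eq ?_)
    have hqW : ∀ r : ↥(Spec (CommRingCat.of k)), x.1 r ∈ W := fun r => by
      rw [apply_eq_markedPoint c x r, ← apply_eq_markedPoint c x q]; exact hpW
    have hxb : appLEHom x.1 (V := ⊤) (fun r _ => hqW r) b = 0 := by
      refine germ_injective_of_isIntegral (X := Spec (CommRingCat.of k)) (U := ⊤) q trivial
        (Eq.trans ?_ (map_zero _).symm)
      change germAt (U := ⊤) q trivial (appLEHom x.1 _ b) = 0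
      rw [← stalkMap_germAt x.1 (V := ⊤) (fun r _ => hqW r) q trivial, ← RingHom.mem_ker,
        ker_stalkMap_point]
      exact hz
    rw [stalkMap_germAt σ (U := B) (V := σ ⁻¹ᵁ B) le_rfl p hσB, map_sub, map_sub, appLEHom_appLEHom, appLEHom_appLEHom,
      appLEHom_congr (pointSection_fst c x), appLEHom_congr (pointSection_snd c x), appLEHom_id,
      germAt_res, ← appLEHom_appLEHom c x.1 (V := ⊤) (fun _ _ => trivial) (fun r _ => hqW r),
      hxb, map_zero, map_zero, sub_zero]

/-- The class `O(Δ)` of the diagonal. -/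
def diagClass : Pic (pullback c c) :=
  have := isIntegral_prod c c
  divisorClass (diagMap c)

theorem map_diagClass (x : SchemeHomOver (𝟙 (Spec (CommRingCat.of k))) c) :
    Pic.map (pointSection c x) (diagClass c) = pointClass c x := by
  have := isIntegral_prod c c
  exact map_divisorClass (pointSection c x) (genericPoint_notMem_range_diagonal c)
    (genericPoint_notMem_range_point c x) (exists_isEquation_diagonal c)
    fun U a h => isEquation_pointSection c x h

theorem diagClass_eq {ι : Type u} (c' : Cocycle (pullback c c) ι) (s : Sec c' ⊤)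
    (hs : ∀ i, IsEquation (diagMap c) (c'.U i) (s.val i (c'.U i) le_top le_rfl)) :
    Pic.mk c' = diagClass c := by
  have := isIntegral_prod c c
  exact mk_eq_divisorClass (genericPoint_notMem_range_diagonal c) c' s hs

end Fermat.Agent.Jac
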