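import Fermat.Agent.Jac.LineSections

/-!
Divisors given by local equations on an integral scheme, and their classes in the Picard group.
-/

set_option autoImplicit false
set_option linter.unusedVariables false
set_option linter.unusedSectionVars false

noncomputable section

open CategoryTheory AlgebraicGeometry TopologicalSpace Opposite

namespace Fermat.Agent.Jac

universe u

variable {X Y Z : Scheme.{u}}

/-- Germs of functions. -/
def germAt {U : Y.Opens} (y : Y) (hy : y ∈ U) : Γ(Y, U) →+* Y.presheaf.stalk y :=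
  (Y.presheaf.germ U y hy).hom

@[simp] theorem germAt_res {U V : Y.Opens} (h : V ≤ U) (y : Y) (hy : y ∈ V) (a : Γ(Y, U)) :
    germAt y hy (res h a) = germAt y (h hy) a :=
  Y.presheaf.germ_res_apply (homOfLE h) y hy a

theorem germAt_ext {U : Y.Opens} {a b : Γ(Y, U)}
    (h : ∀ y (hy : y ∈ U), germAt y hy a = germAt y hy b) : a = b :=
  TopCat.Presheaf.section_ext Y.sheaf U a b h

theorem exists_germAt_eq (y : Y) (z : Y.presheaf.stalk y) :
    ∃ (U : Y.Opens) (hy : y ∈ U) (a : Γ(Y, U)), germAt y hy a = z :=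
  Y.presheaf.exists_germ_eq z

theorem exists_res_eq_of_germAt_eq {U V : Y.Opens} {y : Y} {hU : y ∈ U} {hV : y ∈ V}
    {a : Γ(Y, U)} {b : Γ(Y, V)} (h : germAt y hU a = germAt y hV b) :
    ∃ (W : Y.Opens) (hWU : W ≤ U) (hWV : W ≤ V), y ∈ W ∧ res hWU a = res hWV b := by
  obtain ⟨W, hW, i₁, i₂, e⟩ := Y.presheaf.germ_eq y hU hV a b h
  exact ⟨W, i₁.le, i₂.le, hW, e⟩

theorem stalkMap_germAt (f : X ⟶ Y) {U : Y.Opens} {V : X.Opens} (h : V ≤ f ⁻¹ᵁ U) (x : X)
    (hx : x ∈ V) (a : Γ(Y, U)) :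
    (f.stalkMap x).hom (germAt (f x) (h hx) a) = germAt x hx (appLEHom f h a) := by
  have h1 : germAt x hx (appLEHom f h a) = germAt x (h hx) (f.app U a) :=
    X.presheaf.germ_res_apply (homOfLE h) x hx (f.app U a)
  rw [h1]
  exact Scheme.Hom.germ_stalkMap_apply f U x (h hx) a

/-- A local equation of the divisor which is the image of `δ`. -/
structure IsEquation (δ : Z ⟶ Y) (U : Y.Opens) (f : Γ(Y, U)) : Prop where
  unit : ∀ y (hy : y ∈ U), y ∉ Set.range δ → IsUnit (germAt y hy f)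
  span : ∀ p (hp : δ p ∈ U), Ideal.span {germAt (δ p) hp f} = RingHom.ker (δ.stalkMap p).hom

namespace IsEquation

variable {δ : Z ⟶ Y} {U V : Y.Opens} {a : Γ(Y, U)} {b : Γ(Y, V)}

theorem restrict (h : IsEquation δ U a) {W : Y.Opens} (hW : W ≤ U) :
    IsEquation δ W (res hW a) where
  unit y hy hn := by rw [germAt_res]; exact h.unit y _ hn
  span p hp := by rw [germAt_res]; exact h.span p _

theorem one (hU : ∀ y ∈ U, y ∉ Set.range δ) : IsEquation δ U 1 where
  unit y hy _ := by rw [map_one]; exact isUnit_one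
  span p hp := absurd ⟨p, rfl⟩ (hU _ hp)

variable [IsIntegral Y]

theorem germ_ne_zero (h : IsEquation δ U a) (hδ : genericPoint Y ∉ Set.range δ) (y : Y)
    (hy : y ∈ U) : germAt y hy a ≠ 0 := by
  intro h0
  have ha : a = 0 := germ_injective_of_isIntegral (X := Y) y hy (h0.trans (map_zero _).symm)
  have hg : genericPoint Y ∈ U :=
    ((genericPoint_spec Y).mem_open_set_iff U.isOpen).2 ⟨y, trivial, hy⟩
  refine (h.unit _ hg hδ).ne_zero ?_
  rw [ha, map_zero]

theorem associated (ha : IsEquation δ U a) (hb : IsEquation δ V b) (y : Y) (hy : y ∈ U)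
    (hy' : y ∈ V) : Associated (germAt y hy a) (germAt y hy' b) := by
  by_cases h : y ∈ Set.range δ
  · obtain ⟨p, rfl⟩ := h
    exact Ideal.span_singleton_eq_span_singleton.1 ((ha.span p hy).trans (hb.span p hy').symm)
  · exact (associated_one_iff_isUnit.2 (ha.unit y hy h)).trans
      (associated_one_iff_isUnit.2 (hb.unit y hy' h)).symm

end IsEquation

variable [IsIntegral Y]

theorem cancel_of_germ_ne_zero {V : Y.Opens} {b r r' : Γ(Y, V)}
    (hb : ∀ y (hy : y ∈ V), germAt y hy b ≠ 0) (h : r * b = r' * b) : r = r' :=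
  germAt_ext fun y hy => by
    have := congrArg (germAt y hy) h
    rw [map_mul, map_mul] at this
    exact mul_right_cancel₀ (hb y hy) this

theorem exists_mul_eq_of_dvd {V : Y.Opens} {a b : Γ(Y, V)}
    (hb : ∀ y (hy : y ∈ V), germAt y hy b ≠ 0)
    (h : ∀ y (hy : y ∈ V), germAt y hy b ∣ germAt y hy a) : ∃ s : Γ(Y, V), s * b = a := by
  have hloc : ∀ y : V, ∃ (W : Y.Opens) (hW : W ≤ V) (r : Γ(Y, W)),
      y.1 ∈ W ∧ r * res hW b = res hW a := by
    rintro ⟨y, hy⟩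
    obtain ⟨z, hz⟩ := h y hy
    obtain ⟨W, hW, r, rfl⟩ := exists_germAt_eq y z
    have key : germAt y (show y ∈ W ⊓ V from ⟨hW, hy⟩)
        (res (inf_le_left : W ⊓ V ≤ W) r * res (inf_le_right : W ⊓ V ≤ V) b) = germAt y hy a := by
      rw [map_mul, germAt_res, germAt_res, hz, mul_comm]
    obtain ⟨W', hW', hW'V, hyW', e⟩ := exists_res_eq_of_germAt_eq key
    refine ⟨W', hW'V, res (hW'.trans inf_le_left) r, hyW', ?_⟩
    rw [← e, map_mul, res_res, res_res]
  choose W hW r hyW hr using hloc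
  obtain ⟨s, hs, -⟩ := sections_glue W (fun y hy => Opens.mem_iSup.2 ⟨⟨y, hy⟩, hyW ⟨y, hy⟩⟩)
    (fun i T _ hi => res hi (r i)) (fun i T T' hT hTV hi => res_res hT hi _)
    (fun i j T hTV hi hj => by
      refine cancel_of_germ_ne_zero (b := res hTV b)
        (fun y hy => by rw [germAt_res]; exact hb y _) ?_
      have h1 := congrArg (res hi) (hr i)
      have h2 := congrArg (res hj) (hr j)
      rw [map_mul, res_res, res_res] at h1 h2
      rw [h1, h2])
  refine ⟨s, sections_ext W (fun y hy => Opens.mem_iSup.2 ⟨⟨y, hy⟩, hyW ⟨y, hy⟩⟩)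
    fun i T hT hi => ?_⟩
  rw [map_mul, hs i T hT hi]
  have h1 := congrArg (res hi) (hr i)
  rw [map_mul, res_res, res_res] at h1
  exact h1

section Quot

variable {δ : Z ⟶ Y} (hδ : genericPoint Y ∉ Set.range δ)

theorem exists_eqQuot {U V W : Y.Opens} {a : Γ(Y, U)} {b : Γ(Y, V)} (ha : IsEquation δ U a)
    (hb : IsEquation δ V b) (hU : W ≤ U) (hV : W ≤ V) (hδ : genericPoint Y ∉ Set.range δ) :
    ∃ s : Γ(Y, W), IsUnit s ∧ s * res hV b = res hU a := by
  have ha0 := (ha.restrict hU).germ_ne_zero hδ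
  have hb0 := (hb.restrict hV).germ_ne_zero hδ
  obtain ⟨s, hs⟩ := exists_mul_eq_of_dvd hb0
    fun y hy => ((hb.restrict hV).associated (ha.restrict hU) y hy hy).dvd
  obtain ⟨t, ht⟩ := exists_mul_eq_of_dvd ha0
    fun y hy => ((ha.restrict hU).associated (hb.restrict hV) y hy hy).dvd
  refine ⟨s, IsUnit.of_mul_eq_one t (cancel_of_germ_ne_zero ha0 ?_), hs⟩
  rw [mul_assoc, ht, hs, one_mul]

/-- The quotient of two local equations. -/
def eqQuot {U V W : Y.Opens} {a : Γ(Y, U)} {b : Γ(Y, V)} (ha : IsEquation δ U a)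
    (hb : IsEquation δ V b) (hU : W ≤ U) (hV : W ≤ V) : Γ(Y, W) :=
  (exists_eqQuot ha hb hU hV hδ).choose

theorem isUnit_eqQuot {U V W : Y.Opens} {a : Γ(Y, U)} {b : Γ(Y, V)} (ha : IsEquation δ U a)
    (hb : IsEquation δ V b) (hU : W ≤ U) (hV : W ≤ V) : IsUnit (eqQuot hδ ha hb hU hV) :=
  (exists_eqQuot ha hb hU hV hδ).choose_spec.1

theorem eqQuot_mul {U V W : Y.Opens} {a : Γ(Y, U)} {b : Γ(Y, V)} (ha : IsEquation δ U a)
    (hb : IsEquation δ V b) (hU : W ≤ U) (hV : W ≤ V) :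
    eqQuot hδ ha hb hU hV * res hV b = res hU a :=
  (exists_eqQuot ha hb hU hV hδ).choose_spec.2

include hδ in
theorem eq_of_mul_equation {V W : Y.Opens} {b : Γ(Y, V)} (hb : IsEquation δ V b) (hV : W ≤ V)
    {r r' : Γ(Y, W)} (h : r * res hV b = r' * res hV b) : r = r' :=
  cancel_of_germ_ne_zero ((hb.restrict hV).germ_ne_zero hδ) h

theorem res_eqQuot {U V W W' : Y.Opens} {a : Γ(Y, U)} {b : Γ(Y, V)} (ha : IsEquation δ U a)
    (hb : IsEquation δ V b) (hU : W ≤ U) (hV : W ≤ V) (h : W' ≤ W) :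
    res h (eqQuot hδ ha hb hU hV) = eqQuot hδ ha hb (h.trans hU) (h.trans hV) := by
  refine eq_of_mul_equation hδ hb (h.trans hV) ?_
  rw [eqQuot_mul, ← res_res h hV, ← map_mul, eqQuot_mul, res_res]

theorem eqQuot_self {U W : Y.Opens} {a : Γ(Y, U)} (ha : IsEquation δ U a) (hU : W ≤ U) :
    eqQuot hδ ha ha hU hU = 1 :=
  eq_of_mul_equation hδ ha hU (by rw [eqQuot_mul, one_mul])

theorem eqQuot_trans {U V T W : Y.Opens} {a : Γ(Y, U)} {b : Γ(Y, V)} {d : Γ(Y, T)}
    (ha : IsEquation δ U a) (hb : IsEquation δ V b) (hd : IsEquation δ T d) (hU : W ≤ U)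
    (hV : W ≤ V) (hT : W ≤ T) :
    eqQuot hδ ha hb hU hV * eqQuot hδ hb hd hV hT = eqQuot hδ ha hd hU hT :=
  eq_of_mul_equation hδ hd hT (by rw [mul_assoc, eqQuot_mul, eqQuot_mul, eqQuot_mul])

/-- The cocycle of a family of local equations. -/
def eqCocycle {ι : Type u} (U : ι → Y.Opens) (hU : ∀ y : Y, ∃ i, y ∈ U i) (f : ∀ i, Γ(Y, U i))
    (hf : ∀ i, IsEquation δ (U i) (f i)) : Cocycle Y ι where
  U := U
  cover := hU
  g i j V hi hj := eqQuot hδ (hf i) (hf j) hi hj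
  res_g i j V W h hi hj := res_eqQuot hδ (hf i) (hf j) hi hj h
  g_self i V hi := eqQuot_self hδ (hf i) hi
  g_mul i j l V hi hj hl := eqQuot_trans hδ (hf i) (hf j) (hf l) hi hj hl

/-- Its canonical section. -/
def eqSec {ι : Type u} (U : ι → Y.Opens) (hU : ∀ y : Y, ∃ i, y ∈ U i) (f : ∀ i, Γ(Y, U i))
    (hf : ∀ i, IsEquation δ (U i) (f i)) : Sec (eqCocycle hδ U hU f hf) ⊤ where
  val i V _ hi := res hi (f i)
  res_val i V V' h _ hi := res_res _ _ _
  g_val i j V _ hi hj := eqQuot_mul hδ (hf i) (hf j) hi hj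

end Quot

open Classical in
/-- The class of the divisor which is the image of `δ`. -/
def divisorClass (δ : Z ⟶ Y) : Pic Y :=
  if h : genericPoint Y ∉ Set.range δ ∧
      ∀ y : Y, ∃ U : Y.Opens, y ∈ U ∧ ∃ f, IsEquation δ U f then
    Pic.mk (eqCocycle h.1 (fun y => (h.2 y).choose) (fun y => ⟨y, (h.2 y).choose_spec.1⟩)
      (fun y => (h.2 y).choose_spec.2.choose) (fun y => (h.2 y).choose_spec.2.choose_spec))
  else 1

/-- A line bundle with a section whose divisor is the image of `δ` has the class of `δ`. -/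
theorem mk_eq_divisorClass {δ : Z ⟶ Y} (hδ : genericPoint Y ∉ Set.range δ) {ι : Type u}
    (c : Cocycle Y ι) (s : Sec c ⊤)
    (hs : ∀ i, IsEquation δ (c.U i) (s.val i (c.U i) le_top le_rfl)) :
    Pic.mk c = divisorClass δ := by
  have h : genericPoint Y ∉ Set.range δ ∧
      ∀ y : Y, ∃ U : Y.Opens, y ∈ U ∧ ∃ f, IsEquation δ U f := by
    refine ⟨hδ, fun y => ?_⟩
    obtain ⟨i, hi⟩ := c.cover y
    exact ⟨_, hi, _, hs i⟩
  rw [divisorClass, dif_pos h, Pic.mk_eq_mk_iff]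
  set hf := fun y : Y => (h.2 y).choose_spec.2.choose_spec
  refine ⟨{
    φ := fun i a V hi ha => eqQuot hδ (hs i) (hf a) hi ha
    res_φ := fun i a V W hW hi ha => res_eqQuot hδ (hs i) (hf a) hi ha hW
    isUnit_φ := fun i a V hi ha => isUnit_eqQuot hδ (hs i) (hf a) hi ha
    g_φ := fun i j a V hi hj ha => eq_of_mul_equation hδ (hf a) ha ?_
    φ_g := fun i a b V hi ha hb => eqQuot_trans hδ (hs i) (hf a) (hf b) hi ha hb }⟩
  rw [mul_assoc, eqQuot_mul, eqQuot_mul, s.res_val, s.res_val]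
  exact s.g_val i j V le_top hi hj

theorem exists_sec_divisorClass {δ : Z ⟶ Y} (hδ : genericPoint Y ∉ Set.range δ)
    (hex : ∀ y : Y, ∃ U : Y.Opens, y ∈ U ∧ ∃ f, IsEquation δ U f) :
    ∃ (c : Cocycle Y Y) (s : Sec c ⊤),
      (∀ i, IsEquation δ (c.U i) (s.val i (c.U i) le_top le_rfl)) ∧ Pic.mk c = divisorClass δ := by
  choose U hU f hf using hex
  let c := eqCocycle hδ U (fun y => ⟨y, hU y⟩) f hf
  let s : Sec c ⊤ := eqSec hδ U (fun y => ⟨y, hU y⟩) f hf
  have hs : ∀ i, IsEquation δ (c.U i) (s.val i (c.U i) le_top le_rfl) := fun i => (hf i).restrict _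
  exact ⟨c, s, hs, mk_eq_divisorClass hδ c s hs⟩

/-- Pullback of a section. -/
def Sec.pull (f : X ⟶ Y) {ι : Type u} {c : Cocycle Y ι} (s : Sec c ⊤) : Sec (c.pull f) ⊤ where
  val i V _ hi := appLEHom f (U := c.U i) hi (s.val i (c.U i) le_top le_rfl)
  res_val i V V' h _ hi := res_appLEHom _ _ _ _
  g_val i j V _ hi hj := by
    have hW : V ≤ f ⁻¹ᵁ (c.U i ⊓ c.U j) := le_inf hi hj
    have h1 := congrArg (appLEHom f hW) (s.g_val i j (c.U i ⊓ c.U j) le_top inf_le_left inf_le_right)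
    rw [map_mul, ← s.res_val i (c.U i) _ inf_le_left le_top le_rfl,
      ← s.res_val j (c.U j) _ inf_le_right le_top le_rfl, appLEHom_res, appLEHom_res] at h1
    exact h1

/-- Compatibility with pullback. -/
theorem map_divisorClass [IsIntegral X] {W : Scheme.{u}} {δ : Z ⟶ Y} {δ' : W ⟶ X} (f : X ⟶ Y)
    (hδ : genericPoint Y ∉ Set.range δ) (hδ' : genericPoint X ∉ Set.range δ')
    (hex : ∀ y : Y, ∃ U : Y.Opens, y ∈ U ∧ ∃ a, IsEquation δ U a)
    (hf : ∀ (U : Y.Opens) (a : Γ(Y, U)), IsEquation δ U a →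
      IsEquation δ' (f ⁻¹ᵁ U) (appLEHom f le_rfl a)) :
    Pic.map f (divisorClass δ) = divisorClass δ' := by
  obtain ⟨c, s, hs, he⟩ := exists_sec_divisorClass hδ hex
  rw [← he, Pic.map_mk]
  exact mk_eq_divisorClass hδ' _ (s.pull f) fun i => hf _ _ (hs i)

end Fermat.Agent.Jac
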