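import Fermat.Agent.Jac.Geom.Sections
import Fermat.Agent.Jac.Curve.Charts

/-!
Products with a smooth proper curve: affine boxes, integrality, and powers of the curve.
-/

set_option autoImplicit false
set_option linter.unusedVariables false
set_option linter.unusedSectionVars false

noncomputable section

open CategoryTheory CategoryTheory.Limits AlgebraicGeometry TopologicalSpace Opposite NeronModelInfra
open scoped TensorProduct

namespace Fermat.Agent.Jac

universe u

variable {k : Type u} [Field k] {C X : Scheme.{u}} (c : C ⟶ Spec (CommRingCat.of k))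
  (t : X ⟶ Spec (CommRingCat.of k))

/-- The open `U × W` of a product. -/
abbrev boxOpen (U : C.Opens) (W : X.Opens) : (pullback c t).Opens :=
  pullback.fst c t ⁻¹ᵁ U ⊓ pullback.snd c t ⁻¹ᵁ W

/-- Functions of the first factor on a box. -/
def boxFst (U : C.Opens) (W : X.Opens) : FunRing c U →+* Γ(pullback c t, boxOpen c t U W) :=
  (appLEHom (pullback.fst c t) inf_le_left).comp ((toFunRing c U).symm : FunRing c U →+* Γ(C, U))

/-- Functions of the second factor on a box. -/
def boxSnd (U : C.Opens) (W : X.Opens) : FunRing t W →+* Γ(pullback c t, boxOpen c t U W) :=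
  (appLEHom (pullback.snd c t) inf_le_right).comp ((toFunRing t W).symm : FunRing t W →+* Γ(X, W))

theorem boxSnd_algebraMap (U : C.Opens) (W : X.Opens) (a : k) :
    boxSnd c t U W (algebraMap k (FunRing t W) a) = boxFst c t U W (algebraMap k (FunRing c U) a) := by
  change appLEHom (pullback.snd c t) inf_le_right
      (appLEHom t (le_preimage_top t W) ((Scheme.ΓSpecIso (CommRingCat.of k)).inv a)) =
    appLEHom (pullback.fst c t) inf_le_left
      (appLEHom c (le_preimage_top c U) ((Scheme.ΓSpecIso (CommRingCat.of k)).inv a))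
  rw [appLEHom_appLEHom, appLEHom_appLEHom]
  exact appLEHom_congr pullback.condition.symm _ _

/-- `Γ(U) ⊗ Γ(W) → Γ(U × W)`. -/
def boxHom (U : C.Opens) (W : X.Opens) :
    FunRing c U ⊗[k] FunRing t W →+* Γ(pullback c t, boxOpen c t U W) :=
  letI : Algebra k Γ(pullback c t, boxOpen c t U W) :=
    ((boxFst c t U W).comp (algebraMap k (FunRing c U))).toAlgebra
  (Algebra.TensorProduct.lift
    ({ boxFst c t U W with commutes' := fun _ => rfl } :
      FunRing c U →ₐ[k] Γ(pullback c t, boxOpen c t U W))
    ({ boxSnd c t U W with commutes' := boxSnd_algebraMap c t U W } :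
      FunRing t W →ₐ[k] Γ(pullback c t, boxOpen c t U W))
    fun _ _ => Commute.all _ _).toRingHom

theorem boxHom_tmul (U : C.Opens) (W : X.Opens) (a : FunRing c U) (b : FunRing t W) :
    boxHom c t U W (a ⊗ₜ b) = boxFst c t U W a * boxSnd c t U W b := rfl

/-- Functions on a box of affines. -/
theorem boxHom_bijective {U : C.Opens} (hU : IsAffineOpen U) {W : X.Opens} (hW : IsAffineOpen W) :
    Function.Bijective (boxHom c t U W) := by
  let ik := Scheme.ΓSpecIso (CommRingCat.of k)
  have H : IsPullback (pullback.fst c t) (pullback.snd c t) c t := IsPullback.of_hasPullback _ _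
  have h0 := (isIso_pushoutSection_iff H (US := ⊤) (UT := W) (UX := U) le_top le_top
    (UY := boxOpen c t U W) rfl).mp
    (isIso_pushoutSection_of_isAffineOpen H _ _ _ (isAffineOpen_top _) hW hU)
  have h1 : IsPushout (CommRingCat.ofHom (algebraMap k (FunRing c U)))
      (CommRingCat.ofHom (algebraMap k (FunRing t W))) (CommRingCat.ofHom (boxFst c t U W))
      (CommRingCat.ofHom (boxSnd c t U W)) := by
    refine h0.of_iso ik (Iso.refl _) (Iso.refl _) (Iso.refl _) ?_ ?_ ?_ ?_
    · ext a
      change c.appLE ⊤ U _ a = c.appLE ⊤ U _ (ik.inv (ik.hom a))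
      rw [Iso.hom_inv_id_apply]
    · ext a
      change t.appLE ⊤ W _ a = t.appLE ⊤ W _ (ik.inv (ik.hom a))
      rw [Iso.hom_inv_id_apply]
    · rfl
    · rfl
  have h2 := CommRingCat.isPushout_tensorProduct k (FunRing c U) (FunRing t W)
  have key : CommRingCat.ofHom (boxHom c t U W) = (h2.isoIsPushout _ _ h1).hom := by
    refine h2.hom_ext ?_ ?_
    · rw [IsPushout.inl_isoIsPushout_hom]
      ext f
      change boxHom c t U W (f ⊗ₜ (1 : FunRing t W)) = _
      rw [boxHom_tmul, map_one, mul_one]
      rfl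
    · rw [IsPushout.inr_isoIsPushout_hom]
      ext a
      change boxHom c t U W ((1 : FunRing c U) ⊗ₜ a) = _
      rw [boxHom_tmul, map_one, one_mul]
      rfl
  have hb := ConcreteCategory.bijective_of_isIso (h2.isoIsPushout _ _ h1).hom
  rw [← key] at hb
  exact hb

theorem isAffineOpen_boxOpen {U : C.Opens} (hU : IsAffineOpen U) {W : X.Opens}
    (hW : IsAffineOpen W) : IsAffineOpen (boxOpen c t U W) := by
  have : IsAffine (⊤ : (Spec (CommRingCat.of k)).Opens).toScheme := isAffineOpen_top _
  have : IsAffine U.toScheme := hU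
  have : IsAffine W.toScheme := hW
  exact .of_isIso (Scheme.Hom.isPullback_resLE (IsPullback.of_hasPullback c t) (US := ⊤) (UT := W)
    (UX := U) le_top le_top (UY := boxOpen c t U W) rfl).isoPullback.hom

theorem nonempty_boxOpen (U : C.Opens) [Nonempty U] (W : X.Opens) [Nonempty W] :
    Nonempty (boxOpen c t U W) := by
  obtain ⟨u⟩ := ‹Nonempty U›
  obtain ⟨w⟩ := ‹Nonempty W›
  obtain ⟨z, hz, hz'⟩ := Scheme.Pullback.exists_preimage_pullback (f := c) (g := t) u.1 w.1
    (Subsingleton.elim _ _)
  exact ⟨⟨z, show (pullback.fst c t) z ∈ U by rw [hz]; exact u.2,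
    show (pullback.snd c t) z ∈ W by rw [hz']; exact w.2⟩⟩

theorem exists_boxOpen_mem (z : ↥(pullback c t)) : ∃ (U : C.Opens) (W : X.Opens),
    IsAffineOpen U ∧ IsAffineOpen W ∧ z ∈ boxOpen c t U W := by
  obtain ⟨_, ⟨U, hU, rfl⟩, hx, -⟩ :=
    C.isBasis_affineOpens.exists_subset_of_mem_open (Set.mem_univ (pullback.fst c t z)) isOpen_univ
  obtain ⟨_, ⟨W, hW, rfl⟩, hy, -⟩ :=
    X.isBasis_affineOpens.exists_subset_of_mem_open (Set.mem_univ (pullback.snd c t z)) isOpen_univ
  exact ⟨U, W, hU, hW, hx, hy⟩

theorem finiteType_funRing [LocallyOfFiniteType c] {U : C.Opens} (hU : IsAffineOpen U) :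
    Algebra.FiniteType k (FunRing c U) :=
  RingHom.finiteType_algebraMap.1 (RingHom.FiniteType.comp
    (c.finiteType_appLE (isAffineOpen_top _) hU _)
    (RingHom.FiniteType.of_surjective _
      (Scheme.ΓSpecIso (CommRingCat.of k)).symm.commRingCatIsoToRingEquiv.surjective))

/-- The tensor product of a finitely generated domain and a domain is a domain. -/
theorem isDomain_tensor_of_isDomain (k : Type u) [Field k] [IsAlgClosed k] (R A : Type u)
    [CommRing R] [IsDomain R] [Algebra k R] [Algebra.FiniteType k R] [CommRing A] [IsDomain A]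
    [Algebra k A] : IsDomain (R ⊗[k] A) := by
  have : IsDomain (FractionRing A ⊗[k] R) := Curve.isDomain_tensor k (FractionRing A) R
  let f : R ⊗[k] A →ₐ[k] FractionRing A ⊗[k] R :=
    (Algebra.TensorProduct.comm k R (FractionRing A)).toAlgHom.comp
      (Algebra.TensorProduct.map (AlgHom.id k R) (IsScalarTower.toAlgHom k A (FractionRing A)))
  have hf : Function.Injective f := by
    refine (Algebra.TensorProduct.comm k R (FractionRing A)).injective.comp ?_
    exact Module.Flat.lTensor_preserves_injective_linearMap (M := R)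
      (IsScalarTower.toAlgHom k A (FractionRing A)).toLinearMap
      (IsFractionRing.injective A (FractionRing A))
  exact hf.isDomain f

section Integral

variable [IsAlgClosed k] [IsIntegral C] [IsProper c] [SmoothOfRelativeDimension 1 c] [IsIntegral X]

theorem isDomain_boxOpen {U : C.Opens} [Nonempty U] (hU : IsAffineOpen U) {W : X.Opens} [Nonempty W]
    (hW : IsAffineOpen W) : IsDomain Γ(pullback c t, boxOpen c t U W) := by
  have := finiteType_funRing c hU
  have : IsDomain (FunRing c U) := inferInstanceAs (IsDomain Γ(C, U))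
  have : IsDomain (FunRing t W) := inferInstanceAs (IsDomain Γ(X, W))
  have := isDomain_tensor_of_isDomain k (FunRing c U) (FunRing t W)
  exact (RingEquiv.ofBijective _ (boxHom_bijective c t hU hW)).toMulEquiv.isDomain_iff.1 this

/-- The product with an integral scheme is integral. -/
theorem isIntegral_prod : IsIntegral (pullback c t) := by
  rw [isIntegral_iff_irreducibleSpace_and_isReduced]
  have hne : ∀ {U : C.Opens} {W : X.Opens} {z}, z ∈ boxOpen c t U W → Nonempty U ∧ Nonempty W :=
    fun hz => ⟨⟨⟨_, hz.1⟩⟩, ⟨⟨_, hz.2⟩⟩⟩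
  -- boxes are irreducible
  have hirr : ∀ (U : C.Opens) (W : X.Opens), IsAffineOpen U → IsAffineOpen W → Nonempty U →
      Nonempty W → IsPreirreducible (boxOpen c t U W : Set ↥(pullback c t)) := by
    intro U W hU hW hUn hWn
    have := isDomain_boxOpen c t hU hW
    rw [← (isAffineOpen_boxOpen c t hU hW).range_fromSpec, ← Set.image_univ]
    exact IsPreirreducible.image (PreirreducibleSpace.isPreirreducible_univ)
      _ (isAffineOpen_boxOpen c t hU hW).fromSpec.continuous.continuousOn
  refine ⟨?_, ?_⟩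
  · have hnonempty : Nonempty ↥(pullback c t) := by
      have := nonempty_boxOpen c t (⊤ : C.Opens) (⊤ : X.Opens)
      exact this.map fun z => z.1
    refine { toPreirreducibleSpace := ⟨?_⟩, toNonempty := hnonempty }
    rintro P Q hP hQ ⟨p, -, hp⟩ ⟨q, -, hq⟩
    obtain ⟨U, W, hU, hW, hpB⟩ := exists_boxOpen_mem c t p
    obtain ⟨U', W', hU', hW', hqB⟩ := exists_boxOpen_mem c t q
    obtain ⟨hUn, hWn⟩ := hne hpB
    obtain ⟨hUn', hWn'⟩ := hne hqB
    have : Nonempty (U ⊓ U' : C.Opens) := by
      obtain ⟨x, hx⟩ := nonempty_preirreducible_inter U.isOpen U'.isOpen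
        ⟨_, hUn.some.2⟩ ⟨_, hUn'.some.2⟩
      exact ⟨⟨x, hx⟩⟩
    have : Nonempty (W ⊓ W' : X.Opens) := by
      obtain ⟨x, hx⟩ := nonempty_preirreducible_inter W.isOpen W'.isOpen
        ⟨_, hWn.some.2⟩ ⟨_, hWn'.some.2⟩
      exact ⟨⟨x, hx⟩⟩
    obtain ⟨⟨z, hz⟩⟩ := nonempty_boxOpen c t (U ⊓ U') (W ⊓ W')
    have hzB : z ∈ boxOpen c t U W := ⟨hz.1.1, hz.2.1⟩
    have hzB' : z ∈ boxOpen c t U' W' := ⟨hz.1.2, hz.2.2⟩
    obtain ⟨z₁, hz₁, hz₁P, hz₁B'⟩ := hirr U W hU hW hUn hWn P _ hP
      (boxOpen c t U' W').isOpen ⟨p, hpB, hp⟩ ⟨z, hzB, hzB'⟩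
    obtain ⟨z₂, -, ⟨hz₂P, -⟩, hz₂Q⟩ := hirr U' W' hU' hW' hUn' hWn' (P ∩ boxOpen c t U W) Q
      (hP.inter (boxOpen c t U W).isOpen) hQ ⟨z₁, hz₁B', hz₁P, hz₁⟩ ⟨q, hqB, hq⟩
    exact ⟨z₂, trivial, hz₂P, hz₂Q⟩
  · have : ∀ z : ↥(pullback c t), _root_.IsReduced ((pullback c t).presheaf.stalk z) := by
      intro z
      obtain ⟨U, W, hU, hW, hz⟩ := exists_boxOpen_mem c t z
      obtain ⟨hUn, hWn⟩ := hne hz
      have := isDomain_boxOpen c t hU hW
      letI := (pullback c t).presheaf.algebra_section_stalk (⟨z, hz⟩ : boxOpen c t U W)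
      have := (isAffineOpen_boxOpen c t hU hW).isLocalization_stalk ⟨z, hz⟩
      have : IsDomain ((pullback c t).presheaf.stalk z) :=
        IsLocalization.isDomain_of_le_nonZeroDivisors ((pullback c t).presheaf.stalk z)
          (Ideal.primeCompl_le_nonZeroDivisors
            ((isAffineOpen_boxOpen c t hU hW).primeIdealOf ⟨z, hz⟩).asIdeal)
      infer_instance
    exact isReduced_of_isReduced_stalk _

omit [IsIntegral X] in
theorem geometricallyIntegral_curve : GeometricallyIntegral c := by
  refine ⟨fun K _ y Z fst snd h => ?_⟩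
  have := isIntegral_prod c y
  have : Nonempty ↥Z := ⟨h.isoPullback.inv (Classical.arbitrary _)⟩
  exact isIntegral_of_isOpenImmersion h.isoPullback.hom

end Integral

section Power

/-- Powers of the curve, over the base. -/
def curvePowOver : ℕ → Over (Spec (CommRingCat.of k))
  | 0 => Over.mk (𝟙 (Spec (CommRingCat.of k)))
  | g + 1 => Over.mk (pullback.snd c (curvePowOver g).hom ≫ (curvePowOver g).hom)

/-- The `g`-th power of the curve. -/
abbrev curvePow (g : ℕ) : Scheme.{u} := (curvePowOver c g).left

/-- Its structure map. -/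
abbrev curvePowHom (g : ℕ) : curvePow c g ⟶ Spec (CommRingCat.of k) := (curvePowOver c g).hom

theorem curvePowHom_zero : curvePowHom c 0 = 𝟙 _ := rfl

theorem curvePowHom_succ (g : ℕ) :
    curvePowHom c (g + 1) = pullback.snd c (curvePowHom c g) ≫ curvePowHom c g := rfl

/-- Projections of the powers. -/
def curvePowProj : ∀ (g : ℕ), Fin g → SchemeHomOver (curvePowHom c g) c
  | 0 => fun i => i.elim0
  | g + 1 => Fin.cases
      ⟨pullback.fst c (curvePowHom c g), pullback.condition⟩
      (fun i => ⟨pullback.snd c (curvePowHom c g) ≫ (curvePowProj g i).1, by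
        rw [Category.assoc, (curvePowProj g i).2]; rfl⟩)

theorem curvePowProj_zero (g : ℕ) :
    (curvePowProj c (g + 1) 0).1 = pullback.fst c (curvePowHom c g) := rfl

theorem curvePowProj_succ (g : ℕ) (i : Fin g) :
    (curvePowProj c (g + 1) i.succ).1 =
      pullback.snd c (curvePowHom c g) ≫ (curvePowProj c g i).1 := rfl

variable {c t}

theorem existsUnique_curvePow : ∀ (g : ℕ) (f : Fin g → SchemeHomOver t c),
    ∃! x : SchemeHomOver t (curvePowHom c g), ∀ i, x.1 ≫ (curvePowProj c g i).1 = (f i).1
  | 0, f => ⟨⟨t, Category.comp_id t⟩, fun i => i.elim0,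
      fun y _ => Subtype.ext ((Category.comp_id y.1).symm.trans y.2)⟩
  | g + 1, f => by
    obtain ⟨x, hx, hux⟩ := existsUnique_curvePow g (fun i => f i.succ)
    refine ⟨⟨pullback.lift (f 0).1 x.1 ((f 0).2.trans x.2.symm),
      (pullback.lift_snd_assoc ..).trans x.2⟩, ?_, ?_⟩
    · intro i
      induction i using Fin.cases with
      | zero => exact pullback.lift_fst ..
      | succ i => exact (pullback.lift_snd_assoc ..).trans (hx i)
    · intro y hy
      apply Subtype.ext
      refine pullback.hom_ext ?_ ?_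
      · exact ((hy 0).trans (pullback.lift_fst ..).symm)
      · refine Eq.trans ?_ (pullback.lift_snd ..).symm
        have hy2 : (y.1 ≫ pullback.snd c (curvePowHom c g)) ≫ curvePowHom c g = t :=
          (Category.assoc ..).trans y.2
        exact congrArg Subtype.val (hux ⟨_, hy2⟩ fun i => (Category.assoc ..).trans (hy i.succ))

variable (c t)

/-- Points of the powers are tuples of points. -/
def curvePowEquiv (g : ℕ) : SchemeHomOver t (curvePowHom c g) ≃ (Fin g → SchemeHomOver t c) where
  toFun x i := ⟨x.1 ≫ (curvePowProj c g i).1, by rw [Category.assoc, (curvePowProj c g i).2, x.2]⟩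
  invFun f := (existsUnique_curvePow g f).exists.choose
  left_inv x := (existsUnique_curvePow g _).unique
    (existsUnique_curvePow g _).exists.choose_spec fun _ => rfl
  right_inv f := funext fun i => Subtype.ext ((existsUnique_curvePow g f).exists.choose_spec i)

theorem curvePowEquiv_apply (g : ℕ) (x : SchemeHomOver t (curvePowHom c g)) (i : Fin g) :
    (curvePowEquiv c t g x i).1 = x.1 ≫ (curvePowProj c g i).1 := rfl

instance isProper_curvePowHom [IsProper c] : ∀ g, IsProper (curvePowHom c g)
  | 0 => inferInstanceAs (IsProper (𝟙 _))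
  | g + 1 =>
    have := isProper_curvePowHom g
    inferInstanceAs (IsProper (pullback.snd c (curvePowHom c g) ≫ curvePowHom c g))

theorem smooth_curvePowHom [Smooth c] : ∀ g, Smooth (curvePowHom c g)
  | 0 => inferInstanceAs (Smooth (𝟙 _))
  | g + 1 =>
    have := smooth_curvePowHom g
    inferInstanceAs (Smooth (pullback.snd c (curvePowHom c g) ≫ curvePowHom c g))

variable [IsAlgClosed k] [IsIntegral C] [IsProper c] [SmoothOfRelativeDimension 1 c]

theorem isIntegral_pullback_curvePowHom : ∀ (g : ℕ) {T : Scheme.{u}}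
    (y : T ⟶ Spec (CommRingCat.of k)) [IsIntegral T], IsIntegral (pullback (curvePowHom c g) y)
  | 0, T, y, _ => by
    change IsIntegral (pullback (𝟙 _) y)
    exact isIntegral_of_isOpenImmersion (pullback.snd (𝟙 _) y)
  | g + 1, T, y, _ => by
    have := isIntegral_pullback_curvePowHom g y
    have := isIntegral_prod c (pullback.fst (curvePowHom c g) y ≫ curvePowHom c g)
    change IsIntegral (pullback (pullback.snd c (curvePowHom c g) ≫ curvePowHom c g) y)
    let e := (pullbackRightPullbackFstIso (curvePowHom c g) y (pullback.snd c (curvePowHom c g))).symm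
      ≪≫ pullbackLeftPullbackSndIso c (curvePowHom c g) (pullback.fst (curvePowHom c g) y)
    have : Nonempty ↥(pullback (pullback.snd c (curvePowHom c g) ≫ curvePowHom c g) y) :=
      ⟨e.inv (Classical.arbitrary _)⟩
    exact isIntegral_of_isOpenImmersion e.hom

instance geometricallyIntegral_curvePowHom (g : ℕ) : GeometricallyIntegral (curvePowHom c g) :=
  ⟨fun K _ y Z fst snd h => by
    have := isIntegral_pullback_curvePowHom c g y
    have : Nonempty ↥Z := ⟨h.isoPullback.inv (Classical.arbitrary _)⟩
    exact isIntegral_of_isOpenImmersion h.isoPullback.hom⟩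

instance isIntegral_curvePow : ∀ g, IsIntegral (curvePow c g)
  | 0 => inferInstanceAs (IsIntegral (Spec (CommRingCat.of k)))
  | g + 1 => by
    have := isIntegral_curvePow g
    exact isIntegral_prod c (curvePowHom c g)

end Power

end Fermat.Agent.Jac
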